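import Fermat.Agent.S56.Grp.Defs

/-!
# (a5-G) basic calculus of the twisted adjoint action and of cocycles
-/

set_option autoImplicit false

namespace Fermat.Agent.S56.Grp

open Matrix Polynomial

variable {k : Type} [Field k] {G : Type} [Group G]

local notation "Mat2" => Matrix (Fin 2) (Fin 2)

theorem mem_ad0_iff (X : Mat2 k) : X ∈ ad0 k ↔ X.trace = 0 := by
  simp [ad0]

theorem act_apply (π : G →* GL (Fin 2) k) (g : G) (X : Mat2 k) :
    act π g X = ((π g : GL (Fin 2) k).det : k) •
      ((π g : Mat2 k) * X * ((π g)⁻¹ : GL (Fin 2) k)) := rfl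

theorem coe_mul_coe_inv (A : GL (Fin 2) k) : (A : Mat2 k) * ((A⁻¹ : GL (Fin 2) k) : Mat2 k) = 1 := by
  rw [← Matrix.GeneralLinearGroup.coe_mul, mul_inv_cancel]; rfl

theorem coe_inv_mul_coe (A : GL (Fin 2) k) : ((A⁻¹ : GL (Fin 2) k) : Mat2 k) * (A : Mat2 k) = 1 := by
  rw [← Matrix.GeneralLinearGroup.coe_mul, inv_mul_cancel]; rfl

theorem act_one (π : G →* GL (Fin 2) k) (X : Mat2 k) : act π 1 X = X := by
  simp [act_apply]

theorem act_mul (π : G →* GL (Fin 2) k) (g h : G) (X : Mat2 k) :
    act π (g * h) X = act π g (act π h X) := by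
  rw [act_apply, act_apply, act_apply, map_mul, _root_.mul_inv_rev]
  simp only [Units.val_mul, map_mul, Matrix.mul_smul, Matrix.smul_mul, smul_smul, Matrix.mul_assoc]

theorem act_inv_act (π : G →* GL (Fin 2) k) (g : G) (X : Mat2 k) :
    act π g⁻¹ (act π g X) = X := by
  rw [← act_mul, inv_mul_cancel, act_one]

theorem act_act_inv (π : G →* GL (Fin 2) k) (g : G) (X : Mat2 k) :
    act π g (act π g⁻¹ X) = X := by
  rw [← act_mul, mul_inv_cancel, act_one]

theorem act_injective (π : G →* GL (Fin 2) k) (g : G) : Function.Injective (act π g) := by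
  intro X Y h
  have := congrArg (act π g⁻¹) h
  rwa [act_inv_act, act_inv_act] at this

theorem trace_conj (A : GL (Fin 2) k) (X : Mat2 k) :
    ((A : Mat2 k) * X * ((A⁻¹ : GL (Fin 2) k) : Mat2 k)).trace = X.trace := by
  rw [Matrix.trace_mul_comm, ← Matrix.mul_assoc, coe_inv_mul_coe, Matrix.one_mul]

theorem trace_act (π : G →* GL (Fin 2) k) (g : G) (X : Mat2 k) :
    (act π g X).trace = ((π g : GL (Fin 2) k).det : k) * X.trace := by
  rw [act_apply, Matrix.trace_smul, trace_conj, smul_eq_mul]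

theorem act_mem_ad0 (π : G →* GL (Fin 2) k) (g : G) {X : Mat2 k} (hX : X ∈ ad0 k) :
    act π g X ∈ ad0 k := by
  rw [mem_ad0_iff] at hX ⊢
  rw [trace_act, hX, mul_zero]

theorem act_of_eq_one (π : G →* GL (Fin 2) k) {x : G} (hx : π x = 1) (X : Mat2 k) :
    act π x X = X := by
  simp [act_apply, hx]

theorem act_congr (π : G →* GL (Fin 2) k) {x y : G} (h : π x = π y) (X : Mat2 k) :
    act π x X = act π y X := by
  simp [act_apply, h]

/-- the coboundary of `m` -/
def cobd (π : G →* GL (Fin 2) k) (m : Mat2 k) : G → Mat2 k := fun g => act π g m - m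

theorem cobd_apply (π : G →* GL (Fin 2) k) (m : Mat2 k) (g : G) :
    cobd π m g = act π g m - m := rfl

theorem isCocycle_cobd (π : G →* GL (Fin 2) k) {m : Mat2 k} (hm : m ∈ ad0 k) :
    IsCocycle π (cobd π m) where
  mem g := (ad0 k).sub_mem (act_mem_ad0 π g hm) hm
  map_mul g h := by
    simp only [cobd_apply, act_mul, map_sub]
    abel

theorem isCoboundary_iff (π : G →* GL (Fin 2) k) (c : G → Mat2 k) :
    IsCoboundary π c ↔ ∃ m ∈ ad0 k, c = cobd π m := by
  constructor
  · rintro ⟨m, hm, h⟩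
    exact ⟨m, hm, funext h⟩
  · rintro ⟨m, hm, rfl⟩
    exact ⟨m, hm, fun _ => rfl⟩

namespace IsCocycle

variable {π : G →* GL (Fin 2) k} {c : G → Mat2 k}

theorem map_one (hc : IsCocycle π c) : c 1 = 0 := by
  have h := hc.map_mul 1 1
  rw [mul_one, act_one] at h
  simpa using h

theorem map_inv (hc : IsCocycle π c) (g : G) : c g⁻¹ = - act π g⁻¹ (c g) := by
  have h := hc.map_mul g⁻¹ g
  rw [inv_mul_cancel, hc.map_one] at h
  exact eq_neg_of_add_eq_zero_left h.symm

theorem map_conj (hc : IsCocycle π c) (τ σ : G) :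
    c (τ * σ * τ⁻¹) = act π τ (c σ) - (act π (τ * σ * τ⁻¹) (c τ) - c τ) := by
  rw [hc.map_mul (τ * σ) τ⁻¹, hc.map_mul τ σ, hc.map_inv, map_neg, act_mul π (τ * σ) τ⁻¹]
  abel

theorem add (hc : IsCocycle π c) {c' : G → Mat2 k} (hc' : IsCocycle π c') :
    IsCocycle π (fun g => c g + c' g) where
  mem g := (ad0 k).add_mem (hc.mem g) (hc'.mem g)
  map_mul g h := by
    simp only [hc.map_mul, hc'.map_mul, map_add]
    abel

theorem sub (hc : IsCocycle π c) {c' : G → Mat2 k} (hc' : IsCocycle π c') :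
    IsCocycle π (fun g => c g - c' g) where
  mem g := (ad0 k).sub_mem (hc.mem g) (hc'.mem g)
  map_mul g h := by
    simp only [hc.map_mul, hc'.map_mul, map_sub]
    abel

theorem comp (hc : IsCocycle π c) {H : Type} [Group H] (f : H →* G) :
    IsCocycle (π.comp f) (fun x => c (f x)) where
  mem x := hc.mem (f x)
  map_mul x y := by
    show c (f (x * y)) = c (f x) + act (π.comp f) x (c (f y))
    rw [_root_.map_mul, hc.map_mul]
    rfl

/-- `c` depends only on the coset modulo elements where it vanishes and which act trivially -/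
theorem map_mul_of_eq_zero (hc : IsCocycle π c) (g : G) {x : G} (hx : c x = 0) :
    c (g * x) = c g := by
  rw [hc.map_mul, hx, map_zero, add_zero]

end IsCocycle

theorem IsCoboundary.isCocycle {π : G →* GL (Fin 2) k} {c : G → Mat2 k} (h : IsCoboundary π c) :
    IsCocycle π c := by
  obtain ⟨m, hm, rfl⟩ := (isCoboundary_iff π c).1 h
  exact isCocycle_cobd π hm

/-- a cocycle is a coboundary iff it is so after subtracting a coboundary -/
theorem isCoboundary_sub_cobd_iff (π : G →* GL (Fin 2) k) (c : G → Mat2 k) {m : Mat2 k}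
    (hm : m ∈ ad0 k) : IsCoboundary π (fun g => c g - cobd π m g) ↔ IsCoboundary π c := by
  constructor
  · rintro ⟨m', hm', h⟩
    refine ⟨m' + m, (ad0 k).add_mem hm' hm, fun g => ?_⟩
    have := h g
    simp only [cobd_apply] at this
    rw [map_add]
    rw [sub_eq_iff_eq_add] at this
    rw [this]; abel
  · rintro ⟨m', hm', h⟩
    refine ⟨m' - m, (ad0 k).sub_mem hm' hm, fun g => ?_⟩
    simp only [cobd_apply, h g, map_sub]
    abel

end Fermat.Agent.S56.Grp
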