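import Mathlib

/-!
# PROJECT T (S56), block (a5-G): the group theory of the Taylor-Wiles primes -- definitions

`k` a finite field of odd characteristic `p`, `G` a finite group, `π : G →* GL (Fin 2) k`,
`χ : G →* (ZMod (p ^ (n + 1)))ˣ`.  The module `ad⁰(1)` is the space of trace-zero matrices with
the twisted action `g • X = det (π g) • (π g * X * (π g)⁻¹)`; cocycles are plain functions
`c : G → Matrix (Fin 2) (Fin 2) k`.
-/

set_option autoImplicit false

namespace Fermat.Agent.S56.Grp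

open Matrix Polynomial

variable {k : Type} [Field k]

/-- trace-zero `2 × 2` matrices -/
def ad0 (k : Type) [Field k] : Submodule k (Matrix (Fin 2) (Fin 2) k) :=
  LinearMap.ker (Matrix.traceLinearMap (Fin 2) k k)

variable {G : Type} [Group G]

/-- the twisted adjoint action `g • X = det (π g) • (π g * X * (π g)⁻¹)` on all matrices -/
def act (π : G →* GL (Fin 2) k) (g : G) :
    Matrix (Fin 2) (Fin 2) k →ₗ[k] Matrix (Fin 2) (Fin 2) k where
  toFun X := ((π g : GL (Fin 2) k).det : k) •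
    ((π g : Matrix (Fin 2) (Fin 2) k) * X * ((π g)⁻¹ : GL (Fin 2) k))
  map_add' X Y := by simp [mul_add, add_mul]
  map_smul' a X := by simp [smul_smul, mul_comm]

/-- a `1`-cocycle with values in `ad⁰(1)` -/
structure IsCocycle (π : G →* GL (Fin 2) k) (c : G → Matrix (Fin 2) (Fin 2) k) : Prop where
  mem : ∀ g, c g ∈ ad0 k
  map_mul : ∀ g h, c (g * h) = c g + act π g (c h)

/-- a `1`-coboundary -/
def IsCoboundary (π : G →* GL (Fin 2) k) (c : G → Matrix (Fin 2) (Fin 2) k) : Prop :=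
  ∃ m ∈ ad0 k, ∀ g, c g = act π g m - m

/-- `A` has two distinct eigenvalues in `k` -/
def IsRegSplit (A : Matrix (Fin 2) (Fin 2) k) : Prop :=
  ∃ a b : k, a ≠ b ∧ A.charpoly = (X - C a) * (X - C b)

/-- the hypotheses on the image: what the vanishing of `H¹` of the image needs -/
structure ImgHyp (p : ℕ) (π : G →* GL (Fin 2) k) : Prop where
  split : ∀ g, ∃ a b : k, (π g : Matrix (Fin 2) (Fin 2) k).charpoly = (X - C a) * (X - C b)
  irr : ∀ v : Fin 2 → k, v ≠ 0 →
    ¬ ∀ g, ∃ μ : k, (π g : Matrix (Fin 2) (Fin 2) k) *ᵥ v = μ • v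
  det : ∀ a : (ZMod p)ˣ, ∃ g, ((π g : GL (Fin 2) k).det : k) = ((a : ZMod p).cast : k)

/-- the hypotheses on `(π, χ)` coming from `habs`, `hdet`, `hsplit`, `hTW` of the frozen S56 -/
structure TWHyp (p n : ℕ) [CharP k p] (π : G →* GL (Fin 2) k)
    (χ : G →* (ZMod (p ^ (n + 1)))ˣ) : Prop where
  det : ∀ g, ((π g : GL (Fin 2) k).det : k) =
    ZMod.castHom (dvd_pow_self p (Nat.succ_ne_zero n)) k
      ((χ g : (ZMod (p ^ (n + 1)))ˣ) : ZMod (p ^ (n + 1)))
  surj : Function.Surjective χ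
  split : ∀ g, ∃ a b : k, (π g : Matrix (Fin 2) (Fin 2) k).charpoly = (X - C a) * (X - C b)
  irr : ∀ H : Subgroup G, H.index = 1 ∨ H.index = 2 →
    ∀ (K : Type) [Field K] [Algebra k K] (v : Fin 2 → K), v ≠ 0 →
      ¬ ∀ h ∈ H, ∃ μ : K, ((π h : Matrix (Fin 2) (Fin 2) k).map (algebraMap k K)) *ᵥ v = μ • v

/-- the Taylor-Wiles set of a cocycle -/
def twSet {p n : ℕ} (π : G →* GL (Fin 2) k) (χ : G →* (ZMod (p ^ (n + 1)))ˣ)
    (c : G → Matrix (Fin 2) (Fin 2) k) : Set G :=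
  {σ | χ σ = 1 ∧ IsRegSplit (π σ : Matrix (Fin 2) (Fin 2) k) ∧
    ∀ m ∈ ad0 k, c σ ≠ act π σ m - m}

end Fermat.Agent.S56.Grp
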