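import Fermat.Agent.S56.Grp.Defs

/-!
# (a5-G) elementary linear algebra of `2 × 2` matrices over a field
-/

set_option autoImplicit false

namespace Fermat.Agent.S56.Grp

open Matrix Polynomial

variable {k : Type} [Field k]

local notation "Mat2" => Matrix (Fin 2) (Fin 2)

theorem quad_eq_iff (t d a b : k) :
    (X ^ 2 - C t * X + C d : k[X]) = (X - C a) * (X - C b) ↔ t = a + b ∧ d = a * b := by
  have h : ((X - C a) * (X - C b) : k[X]) = X ^ 2 - C (a + b) * X + C (a * b) := by
    simp only [map_add, map_mul]; ring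
  rw [h]
  constructor
  · intro H
    have h1 := congrArg (fun q => Polynomial.coeff q 1) H
    have h0 := congrArg (fun q => Polynomial.coeff q 0) H
    simp [Polynomial.coeff_X, Polynomial.coeff_C, Polynomial.coeff_X_pow] at h1 h0
    refine ⟨?_, h0⟩
    have : t = -(-t) := by ring
    rw [this, h1]; ring
  · rintro ⟨rfl, rfl⟩; rfl

theorem charpoly_eq_mul_iff (A : Mat2 k) (a b : k) :
    A.charpoly = (X - C a) * (X - C b) ↔ A.trace = a + b ∧ A.det = a * b := by
  rw [Matrix.charpoly_fin_two, quad_eq_iff]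

theorem isRegSplit_iff (A : Mat2 k) :
    IsRegSplit A ↔ ∃ a b : k, a ≠ b ∧ A.trace = a + b ∧ A.det = a * b := by
  simp only [IsRegSplit, charpoly_eq_mul_iff]

/-- Cayley-Hamilton for `2 × 2` matrices -/
theorem mul_self_eq (A : Mat2 k) : A * A = A.trace • A - A.det • (1 : Mat2 k) := by
  ext i j
  fin_cases i <;> fin_cases j <;>
    simp [Matrix.mul_apply, Fin.sum_univ_two, Matrix.trace_fin_two, Matrix.det_fin_two] <;> ring

theorem mul_self_of_trace_eq_zero {Z : Mat2 k} (hZ : Z.trace = 0) :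
    Z * Z = (-Z.det) • (1 : Mat2 k) := by
  rw [mul_self_eq, hZ, zero_smul, zero_sub, neg_smul]

theorem trace_one_two : (1 : Mat2 k).trace = 2 := by
  simp

theorem trace_pow_of_eq (A : Mat2 k) {a b : k} (ht : A.trace = a + b) (hd : A.det = a * b) :
    ∀ j : ℕ, (A ^ j).trace = a ^ j + b ^ j
  | 0 => by rw [pow_zero, trace_one_two]; norm_num
  | 1 => by simpa using ht
  | (j + 2) => by
    have h0 := trace_pow_of_eq A ht hd j
    have h1 := trace_pow_of_eq A ht hd (j + 1)
    have h2 : A ^ (j + 2) = A.trace • A ^ (j + 1) - A.det • A ^ j := by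
      rw [pow_add A j 2, pow_two, mul_self_eq, Matrix.mul_sub, Matrix.mul_smul, Matrix.mul_smul,
        mul_one, ← pow_succ]
    rw [h2, Matrix.trace_sub, Matrix.trace_smul, Matrix.trace_smul, h1, h0, ht, hd]
    simp only [smul_eq_mul]
    ring

theorem IsRegSplit.ne_scalar {A : Mat2 k} (hA : IsRegSplit A) (s : k) :
    A ≠ Matrix.scalar (Fin 2) s := by
  rintro rfl
  obtain ⟨a, b, hab, ht, hd⟩ := (isRegSplit_iff _).1 hA
  apply hab
  have h1 : (Matrix.scalar (Fin 2) s : Mat2 k).trace = s + s := by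
    simp; ring
  have h2 : (Matrix.scalar (Fin 2) s : Mat2 k).det = s * s := by
    simp; ring
  rw [h1] at ht
  rw [h2] at hd
  have h3 : (a - b) ^ 2 = 0 := by
    have : (a - b) ^ 2 = (a + b) ^ 2 - 4 * (a * b) := by ring
    rw [this, ← ht, ← hd]; ring
  exact sub_eq_zero.1 ((pow_eq_zero_iff (two_ne_zero)).1 h3)

/-- powers: if `A ^ m = 1` and `j` is prime to `m`, then `A ^ j` is again regular split -/
theorem IsRegSplit.pow {A : Mat2 k} (hA : IsRegSplit A) {m j : ℕ} (hm : A ^ m = 1)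
    (hj : Nat.Coprime j m) : IsRegSplit (A ^ j) := by
  rcases Nat.eq_zero_or_pos m with rfl | hmpos
  · rw [Nat.coprime_zero_right] at hj
    subst hj
    rwa [pow_one]
  obtain ⟨a, b, hab, ht, hd⟩ := (isRegSplit_iff _).1 hA
  rw [isRegSplit_iff]
  refine ⟨a ^ j, b ^ j, ?_, trace_pow_of_eq A ht hd j, ?_⟩
  · have hdm : (a * b) ^ m = 1 := by
      rw [← hd, ← Matrix.det_pow, hm, Matrix.det_one]
    have htm : a ^ m + b ^ m = 2 := by
      rw [← trace_pow_of_eq A ht hd m, hm, trace_one_two]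
    have ham : a ^ m = 1 := by
      have : (a ^ m - 1) ^ 2 = 0 := by
        have hb : b ^ m = 2 - a ^ m := by rw [← htm]; ring
        rw [mul_pow, hb] at hdm
        have : (a ^ m - 1) ^ 2 = -(a ^ m * (2 - a ^ m)) + 1 := by ring
        rw [this, hdm]; ring
      exact sub_eq_zero.1 ((pow_eq_zero_iff (two_ne_zero)).1 this)
    have hbm : b ^ m = 1 := by
      have : b ^ m = 2 - a ^ m := by rw [← htm]; ring
      rw [this, ham]; norm_num
    have hb0 : b ≠ 0 := by
      rintro rfl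
      rw [zero_pow hmpos.ne'] at hbm
      exact zero_ne_one hbm
    intro hjj
    apply hab
    have h1 : (a / b) ^ j = 1 := by rw [div_pow, hjj, div_self (pow_ne_zero _ hb0)]
    have h2 : (a / b) ^ m = 1 := by rw [div_pow, ham, hbm, div_one]
    have h3 : orderOf (a / b) ∣ Nat.gcd j m :=
      Nat.dvd_gcd (orderOf_dvd_of_pow_eq_one h1) (orderOf_dvd_of_pow_eq_one h2)
    rw [hj, Nat.dvd_one, orderOf_eq_one_iff] at h3
    exact (div_eq_one_iff_eq hb0).1 h3
  · rw [Matrix.det_pow, hd, mul_pow]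

theorem IsRegSplit.conj {A : Mat2 k} (hA : IsRegSplit A) (B : GL (Fin 2) k) :
    IsRegSplit ((B : Mat2 k) * A * ((B⁻¹ : GL (Fin 2) k) : Mat2 k)) := by
  obtain ⟨a, b, hab, h⟩ := hA
  refine ⟨a, b, hab, ?_⟩
  rw [← h, Matrix.coe_units_inv]
  exact Matrix.charpoly_units_conj B A

end Fermat.Agent.S56.Grp
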