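import Fermat.Agent.S56.Grp.Basic
import Fermat.Agent.S56.Grp.Lin2

/-!
# (a5-G) the Taylor-Wiles set is stable under conjugation and prime-to-order powers,
and depends only on the cohomology class
-/

set_option autoImplicit false

namespace Fermat.Agent.S56.Grp

open Matrix Polynomial

variable {k : Type} [Field k] {G : Type} [Group G]

local notation "Mat2" => Matrix (Fin 2) (Fin 2)

/-- the range of `σ - 1` on `ad⁰(1)` -/
def rg (π : G →* GL (Fin 2) k) (σ : G) : Submodule k (Mat2 k) :=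
  (ad0 k).map (act π σ - LinearMap.id)

theorem mem_rg_iff (π : G →* GL (Fin 2) k) (σ : G) (Y : Mat2 k) :
    Y ∈ rg π σ ↔ ∃ m ∈ ad0 k, Y = act π σ m - m := by
  simp only [rg, Submodule.mem_map, LinearMap.sub_apply, LinearMap.id_coe, id_eq]
  constructor
  · rintro ⟨m, hm, rfl⟩; exact ⟨m, hm, rfl⟩
  · rintro ⟨m, hm, rfl⟩; exact ⟨m, hm, rfl⟩

theorem sub_mem_rg (π : G →* GL (Fin 2) k) (σ : G) {m : Mat2 k} (hm : m ∈ ad0 k) :
    act π σ m - m ∈ rg π σ := (mem_rg_iff π σ _).2 ⟨m, hm, rfl⟩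

theorem rg_le_ad0 (π : G →* GL (Fin 2) k) (σ : G) : rg π σ ≤ ad0 k := by
  intro Y hY
  obtain ⟨m, hm, rfl⟩ := (mem_rg_iff π σ Y).1 hY
  exact (ad0 k).sub_mem (act_mem_ad0 π σ hm) hm

theorem mem_twSet_iff {p n : ℕ} (π : G →* GL (Fin 2) k) (χ : G →* (ZMod (p ^ (n + 1)))ˣ)
    (c : G → Mat2 k) (σ : G) :
    σ ∈ twSet π χ c ↔ χ σ = 1 ∧ IsRegSplit (π σ : Mat2 k) ∧ c σ ∉ rg π σ := by
  show (χ σ = 1 ∧ IsRegSplit (π σ : Mat2 k) ∧ ∀ m ∈ ad0 k, c σ ≠ act π σ m - m) ↔ _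
  simp only [mem_rg_iff, not_exists, not_and]

theorem rg_congr (π : G →* GL (Fin 2) k) {σ σ' : G} (h : π σ = π σ') : rg π σ = rg π σ' := by
  ext Y
  simp only [mem_rg_iff, act_congr π h]

theorem act_pow_sub_mem_rg (π : G →* GL (Fin 2) k) (σ : G) {x : Mat2 k} (hx : x ∈ ad0 k)
    (j : ℕ) : act π (σ ^ j) x - x ∈ rg π σ := by
  induction j with
  | zero => simp [act_one]
  | succ j ih =>
    have h1 : act π (σ ^ (j + 1)) x - x =
        (act π σ (act π (σ ^ j) x) - act π (σ ^ j) x) + (act π (σ ^ j) x - x) := by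
      rw [pow_succ', act_mul]; abel
    rw [h1]
    exact (rg π σ).add_mem (sub_mem_rg π σ (act_mem_ad0 π _ hx)) ih

theorem rg_pow_le (π : G →* GL (Fin 2) k) (σ : G) (j : ℕ) : rg π (σ ^ j) ≤ rg π σ := by
  intro Y hY
  obtain ⟨m, hm, rfl⟩ := (mem_rg_iff π _ Y).1 hY
  exact act_pow_sub_mem_rg π σ hm j

theorem rg_pow_eq (π : G →* GL (Fin 2) k) (σ : G) {j : ℕ} (hj : Nat.Coprime j (orderOf σ)) :
    rg π (σ ^ j) = rg π σ := by
  refine le_antisymm (rg_pow_le π σ j) ?_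
  obtain ⟨i, hi⟩ := exists_pow_eq_self_of_coprime hj
  calc rg π σ = rg π ((σ ^ j) ^ i) := by rw [hi]
    _ ≤ rg π (σ ^ j) := rg_pow_le π (σ ^ j) i

theorem IsCocycle.map_pow_sub_mem_rg {π : G →* GL (Fin 2) k} {c : G → Mat2 k}
    (hc : IsCocycle π c) (σ : G) (j : ℕ) : c (σ ^ j) - (j : k) • c σ ∈ rg π σ := by
  induction j with
  | zero => simp [hc.map_one]
  | succ j ih =>
    have h1 : c (σ ^ (j + 1)) - ((j + 1 : ℕ) : k) • c σ =
        (c (σ ^ j) - (j : k) • c σ) + (act π (σ ^ j) (c σ) - c σ) := by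
      rw [pow_succ, hc.map_mul, Nat.cast_succ, add_smul, one_smul]; abel
    rw [h1]
    exact (rg π σ).add_mem ih (act_pow_sub_mem_rg π σ (hc.mem σ) j)

theorem mem_rg_conj_iff (π : G →* GL (Fin 2) k) (τ σ : G) (Y : Mat2 k) :
    Y ∈ rg π (τ * σ * τ⁻¹) ↔ act π τ⁻¹ Y ∈ rg π σ := by
  simp only [mem_rg_iff]
  constructor
  · rintro ⟨m, hm, rfl⟩
    refine ⟨act π τ⁻¹ m, act_mem_ad0 π _ hm, ?_⟩
    rw [map_sub, ← act_mul, ← act_mul]
    congr 2
    group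
  · rintro ⟨m, hm, h⟩
    refine ⟨act π τ m, act_mem_ad0 π _ hm, ?_⟩
    have h2 := congrArg (act π τ) h
    rw [act_act_inv, map_sub, ← act_mul] at h2
    rw [h2, ← act_mul]
    congr 2
    group

/-- the detection condition is invariant under conjugation -/
theorem IsCocycle.map_conj_mem_rg_iff {π : G →* GL (Fin 2) k} {c : G → Mat2 k}
    (hc : IsCocycle π c) (τ σ : G) :
    c (τ * σ * τ⁻¹) ∈ rg π (τ * σ * τ⁻¹) ↔ c σ ∈ rg π σ := by
  rw [hc.map_conj]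
  have h1 : act π (τ * σ * τ⁻¹) (c τ) - c τ ∈ rg π (τ * σ * τ⁻¹) := sub_mem_rg π _ (hc.mem τ)
  rw [Submodule.sub_mem_iff_left _ h1, mem_rg_conj_iff, act_inv_act]

section charp

/-- a detected element has order divisible by `p` -/
theorem IsCocycle.dvd_orderOf_of_not_mem_rg (p : ℕ) [CharP k p]
    {π : G →* GL (Fin 2) k} {c : G → Mat2 k}
    (hc : IsCocycle π c) {σ : G} (hσ : c σ ∉ rg π σ) : p ∣ orderOf σ := by
  by_contra hp
  apply hσ
  have h1 := hc.map_pow_sub_mem_rg σ (orderOf σ)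
  rw [pow_orderOf_eq_one, hc.map_one, zero_sub, neg_mem_iff] at h1
  have h2 : ((orderOf σ : ℕ) : k) ≠ 0 := by
    rwa [Ne, CharP.cast_eq_zero_iff k p]
  have h3 := (rg π σ).smul_mem ((orderOf σ : k)⁻¹) h1
  rwa [smul_smul, inv_mul_cancel₀ h2, one_smul] at h3

theorem IsCocycle.map_pow_not_mem_rg (p : ℕ) [Fact p.Prime] [CharP k p]
    {π : G →* GL (Fin 2) k} {c : G → Mat2 k}
    (hc : IsCocycle π c) {σ : G} (hσ : c σ ∉ rg π σ) {j : ℕ}
    (hj : Nat.Coprime j (orderOf σ)) : c (σ ^ j) ∉ rg π (σ ^ j) := by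
  rw [rg_pow_eq π σ hj]
  intro h
  apply hσ
  have hp : p ∣ orderOf σ := hc.dvd_orderOf_of_not_mem_rg p hσ
  have hpj : ¬ p ∣ j := by
    intro hpj
    have := Nat.dvd_gcd hpj hp
    rw [hj] at this
    exact (Fact.out : p.Prime).one_lt.ne' (Nat.dvd_one.1 this)
  have h2 : ((j : ℕ) : k) ≠ 0 := by
    rwa [Ne, CharP.cast_eq_zero_iff k p]
  have h1 := hc.map_pow_sub_mem_rg σ j
  have h3 : (j : k) • c σ ∈ rg π σ := by
    have := (rg π σ).sub_mem h h1
    simpa using this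
  have h4 := (rg π σ).smul_mem ((j : k)⁻¹) h3
  rwa [smul_smul, inv_mul_cancel₀ h2, one_smul] at h4

end charp

section main

variable {p n : ℕ}

/-- **stability of the Taylor-Wiles set** under conjugation and prime-to-order powers -/
theorem twSet_conj_pow [Fact p.Prime] [CharP k p] (π : G →* GL (Fin 2) k) (χ : G →* (ZMod (p ^ (n + 1)))ˣ)
    (c : G → Mat2 k) (hc : IsCocycle π c) (σ : G) (hσ : σ ∈ twSet π χ c) (τ : G) (j : ℕ)
    (hj : Nat.Coprime j (orderOf σ)) : τ * σ ^ j * τ⁻¹ ∈ twSet π χ c := by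
  rw [mem_twSet_iff] at hσ ⊢
  obtain ⟨h1, h2, h3⟩ := hσ
  refine ⟨?_, ?_, ?_⟩
  · rw [map_mul, map_mul, map_pow, h1, one_pow, mul_one, map_inv, mul_inv_cancel]
  · have hm : (π σ : Mat2 k) ^ orderOf σ = 1 := by
      rw [← Units.val_pow_eq_pow_val, ← map_pow, pow_orderOf_eq_one, map_one]; rfl
    have := (h2.pow hm hj).conj (π τ)
    rwa [map_mul, map_mul, map_pow, map_inv, Units.val_mul, Units.val_mul, Units.val_pow_eq_pow_val]
  · rw [hc.map_conj_mem_rg_iff]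
    exact hc.map_pow_not_mem_rg p h3 hj

/-- the Taylor-Wiles set depends only on the cohomology class -/
theorem twSet_add_coboundary (π : G →* GL (Fin 2) k) (χ : G →* (ZMod (p ^ (n + 1)))ˣ)
    (c : G → Mat2 k) (m : Mat2 k) (hm : m ∈ ad0 k) :
    twSet π χ (fun g => c g + (act π g m - m)) = twSet π χ c := by
  ext σ
  rw [mem_twSet_iff, mem_twSet_iff]
  have h : act π σ m - m ∈ rg π σ := sub_mem_rg π σ hm
  rw [Submodule.add_mem_iff_left _ h]

end main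

end Fermat.Agent.S56.Grp
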