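import Fermat.Agent.S56.Grp.Basic

/-!
# (a5-G) step (G4): vanishing of `H¹` -- Sah's lemma, averaging, restriction to a Sylow subgroup
-/

set_option autoImplicit false

namespace Fermat.Agent.S56.Grp

open Matrix Polynomial

variable {k : Type} [Field k] {G : Type} [Group G]

local notation "Mat2" => Matrix (Fin 2) (Fin 2)

/-- a scalar matrix acts on `ad⁰(1)` through its square -/
theorem act_of_scalar (π : G →* GL (Fin 2) k) {z : G} {a : k}
    (hza : (π z : Mat2 k) = Matrix.scalar (Fin 2) a) (X : Mat2 k) :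
    act π z X = (a ^ 2) • X := by
  have hdet : ((π z : GL (Fin 2) k).det : k) = a ^ 2 := by
    rw [Matrix.GeneralLinearGroup.val_det_apply, hza]
    simp [pow_two]
  have hcomm : (π z : Mat2 k) * X = X * (π z : Mat2 k) := by
    rw [hza]
    exact (Matrix.scalar_commute a (fun r => mul_comm a r) X).eq
  rw [act_apply, hdet, hcomm, Matrix.mul_assoc, coe_mul_coe_inv, Matrix.mul_one]

/-- **(G4a)** Sah's lemma: a central element acting by a scalar `≠ 1` kills `H¹` -/
theorem isCoboundary_of_central (π : G →* GL (Fin 2) k)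
    (c : G → Mat2 k) (hc : IsCocycle π c)
    (z : G) (hz : ∀ g, z * g = g * z) (a : k)
    (hza : (π z : Mat2 k) = Matrix.scalar (Fin 2) a) (ha : a ^ 2 ≠ 1) :
    IsCoboundary π c := by
  have hne : a ^ 2 - 1 ≠ 0 := sub_ne_zero.2 ha
  refine ⟨(a ^ 2 - 1)⁻¹ • c z, (ad0 k).smul_mem _ (hc.mem z), fun g => ?_⟩
  have e1 : c (z * g) = c z + (a ^ 2) • c g := by
    rw [hc.map_mul, act_of_scalar π hza]
  have e2 : c (g * z) = c g + act π g (c z) := hc.map_mul g z
  rw [hz g, e2] at e1
  have e3 : (a ^ 2 - 1) • c g = act π g (c z) - c z := by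
    rw [sub_smul, one_smul]
    have e4 : (a ^ 2) • c g = c g + act π g (c z) - c z := by rw [e1]; abel
    rw [e4]; abel
  rw [map_smul, ← smul_sub, ← e3, smul_smul, inv_mul_cancel₀ hne, one_smul]

section finite

variable {p : ℕ} [Fact p.Prime] [CharP k p] [Finite G]

omit [Fact p.Prime] in
/-- **(G4b)** averaging: if `p ∤ |G|` every cocycle is a coboundary -/
theorem isCoboundary_of_not_dvd (π : G →* GL (Fin 2) k)
    (c : G → Mat2 k) (hc : IsCocycle π c) (hp : ¬ p ∣ Nat.card G) :
    IsCoboundary π c := by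
  classical
  have : Fintype G := Fintype.ofFinite G
  have hN : ((Fintype.card G : ℕ) : k) ≠ 0 := by
    rw [Ne, CharP.cast_eq_zero_iff k p, ← Nat.card_eq_fintype_card]
    exact hp
  set S : Mat2 k := ∑ h : G, c h with hS
  have hSmem : S ∈ ad0 k := Submodule.sum_mem _ (fun h _ => hc.mem h)
  have key : ∀ g : G, S = (Fintype.card G : k) • c g + act π g S := by
    intro g
    have e1 : ∑ h : G, c (g * h) = S :=
      Fintype.sum_equiv (Equiv.mulLeft g) _ _ (fun h => rfl)
    have e2 : ∑ h : G, c (g * h) = ∑ h : G, (c g + act π g (c h)) :=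
      Finset.sum_congr rfl (fun h _ => hc.map_mul g h)
    calc S = ∑ h : G, c (g * h) := e1.symm
      _ = ∑ h : G, (c g + act π g (c h)) := e2
      _ = (Fintype.card G : k) • c g + act π g S := by
        rw [Finset.sum_add_distrib, Finset.sum_const, Finset.card_univ, hS, map_sum,
          Nat.cast_smul_eq_nsmul]
  refine ⟨-((Fintype.card G : k)⁻¹ • S), (ad0 k).neg_mem ((ad0 k).smul_mem _ hSmem), fun g => ?_⟩
  have e3 : (Fintype.card G : k) • c g = S - act π g S := by
    rw [eq_sub_iff_add_eq]; exact (key g).symm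
  have e4 : c g = (Fintype.card G : k)⁻¹ • (S - act π g S) := by
    rw [← e3, smul_smul, inv_mul_cancel₀ hN, one_smul]
  rw [e4, map_neg, map_smul, smul_sub]
  abel

/-- **(G4s)** restriction to a Sylow `p`-subgroup is injective on `H¹` -/
theorem isCoboundary_of_sylow (π : G →* GL (Fin 2) k)
    (c : G → Mat2 k) (hc : IsCocycle π c) (P : Sylow p G)
    (hP : IsCoboundary (π.comp (P : Subgroup G).subtype) (fun x => c x)) :
    IsCoboundary π c := by
  classical
  obtain ⟨m0, hm0, hP0⟩ := hP
  -- subtract the coboundary of `m0`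
  rw [← isCoboundary_sub_cobd_iff π c hm0]
  set c1 : G → Mat2 k := fun g => c g - cobd π m0 g with hc1
  have hc1coc : IsCocycle π c1 := hc.sub (isCocycle_cobd π hm0)
  have hc1P : ∀ x : G, x ∈ (P : Subgroup G) → c1 x = 0 := by
    intro x hx
    have := hP0 ⟨x, hx⟩
    simp only [hc1, cobd_apply]
    rw [sub_eq_zero]
    exact this
  -- `c1` is constant on left cosets of `P`
  let cq : G ⧸ (P : Subgroup G) → Mat2 k := fun q =>
    Quotient.liftOn' q c1 (fun a b hab => by
      have hab' : a⁻¹ * b ∈ (P : Subgroup G) := QuotientGroup.leftRel_apply.1 hab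
      have e : b = a * (a⁻¹ * b) := by group
      rw [e, hc1coc.map_mul_of_eq_zero a (hc1P _ hab')])
  have hcq : ∀ a : G, cq (QuotientGroup.mk a) = c1 a := fun a => rfl
  have : Fintype (G ⧸ (P : Subgroup G)) := Fintype.ofFinite _
  have hidx : ((Fintype.card (G ⧸ (P : Subgroup G)) : ℕ) : k) ≠ 0 := by
    rw [Ne, CharP.cast_eq_zero_iff k p, ← Nat.card_eq_fintype_card, ← Subgroup.index_eq_card]
    exact P.not_dvd_index
  set S : Mat2 k := ∑ q : G ⧸ (P : Subgroup G), cq q with hS
  have hSmem : S ∈ ad0 k := by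
    refine Submodule.sum_mem _ (fun q _ => ?_)
    induction q using QuotientGroup.induction_on with
    | H a => rw [hcq]; exact hc1coc.mem a
  have key : ∀ g : G, S = (Fintype.card (G ⧸ (P : Subgroup G)) : k) • c1 g + act π g S := by
    intro g
    have e1 : ∑ q : G ⧸ (P : Subgroup G), cq (g • q) = S :=
      Fintype.sum_equiv (MulAction.toPerm g) _ _ (fun q => rfl)
    have e2 : ∑ q : G ⧸ (P : Subgroup G), cq (g • q) =
        ∑ q : G ⧸ (P : Subgroup G), (c1 g + act π g (cq q)) := by
      refine Finset.sum_congr rfl (fun q _ => ?_)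
      induction q using QuotientGroup.induction_on with
      | H a =>
        rw [hcq]
        show cq (QuotientGroup.mk (g * a)) = _
        rw [hcq, hc1coc.map_mul]
    calc S = ∑ q : G ⧸ (P : Subgroup G), cq (g • q) := e1.symm
      _ = ∑ q : G ⧸ (P : Subgroup G), (c1 g + act π g (cq q)) := e2
      _ = (Fintype.card (G ⧸ (P : Subgroup G)) : k) • c1 g + act π g S := by
        rw [Finset.sum_add_distrib, Finset.sum_const, Finset.card_univ, hS, map_sum,
          Nat.cast_smul_eq_nsmul]
  refine ⟨-((Fintype.card (G ⧸ (P : Subgroup G)) : k)⁻¹ • S),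
    (ad0 k).neg_mem ((ad0 k).smul_mem _ hSmem), fun g => ?_⟩
  have e3 : (Fintype.card (G ⧸ (P : Subgroup G)) : k) • c1 g = S - act π g S := by
    rw [eq_sub_iff_add_eq]; exact (key g).symm
  have e4 : c1 g = (Fintype.card (G ⧸ (P : Subgroup G)) : k)⁻¹ • (S - act π g S) := by
    rw [← e3, smul_smul, inv_mul_cancel₀ hidx, one_smul]
  rw [e4, map_neg, map_smul, smul_sub]
  abel

end finite

end Fermat.Agent.S56.Grp
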