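import Fermat.Agent.S56.Grp.Reduce
import Fermat.Agent.S56.Grp.Vanish

/-!
# (a5-G) assembly: the Taylor-Wiles set of a non-trivial class is nonempty,
given the vanishing of `H¹` in the residual case (G4c)
-/

set_option autoImplicit false

namespace Fermat.Agent.S56.Grp

open Matrix Polynomial

variable {k : Type} [Field k]

local notation "Mat2" => Matrix (Fin 2) (Fin 2)

/-- the statement of the residue (G4c): `p ∣ |G|`, the only scalars in the image are `± 1` -/
def ResidueVanishing (p : ℕ) (k : Type) [Field k] : Prop :=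
  ∀ (G : Type) [Group G] [Finite G] (π : G →* GL (Fin 2) k), Function.Injective π →
    ImgHyp p π → p ∣ Nat.card G →
    (∀ (g : G) (a : k), (π g : Mat2 k) = Matrix.scalar (Fin 2) a → a ^ 2 = 1) →
    ∀ c : G → Mat2 k, IsCocycle π c → IsCoboundary π c

variable {G : Type} [Group G] {p n : ℕ} [Fact p.Prime] [CharP k p] [Finite G]

omit [Fact p.Prime] in
/-- **(G4)** every cocycle on a faithful image satisfying `ImgHyp` is a coboundary -/
theorem isCoboundary_of_injective (hres : ResidueVanishing p k) (π : G →* GL (Fin 2) k)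
    (hπ : Function.Injective π) (h : ImgHyp p π)
    (c : G → Mat2 k) (hc : IsCocycle π c) : IsCoboundary π c := by
  by_cases hsc : ∃ (z : G) (a : k), (π z : Mat2 k) = Matrix.scalar (Fin 2) a ∧ a ^ 2 ≠ 1
  · obtain ⟨z, a, hza, ha⟩ := hsc
    refine isCoboundary_of_central π c hc z (fun g => ?_) a hza ha
    apply hπ
    apply Units.ext
    rw [map_mul, map_mul, Units.val_mul, Units.val_mul, hza]
    exact (Matrix.scalar_commute a (fun r => mul_comm a r) _).eq
  · push Not at hsc
    by_cases hp : p ∣ Nat.card G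
    · exact hres G π hπ h hp hsc c hc
    · exact isCoboundary_of_not_dvd π c hc hp

/-- **MAIN THEOREM of (a5-G)**, modulo the residue (G4c) -/
theorem twSet_nonempty_of_residue (hres : ResidueVanishing p k) (hp2 : p ≠ 2)
    (π : G →* GL (Fin 2) k) (χ : G →* (ZMod (p ^ (n + 1)))ˣ) (h : TWHyp p n π χ)
    (c : G → Mat2 k) (hc : IsCocycle π c) (hnc : ¬ IsCoboundary π c) :
    (twSet π χ c).Nonempty := by
  by_cases h0 : ∀ x, π x = 1 → χ x = 1 → c x = 0
  · exfalso
    apply hnc
    have h1 : ∀ x, π x = 1 → c x = 0 := eq_zero_of_mem_ker hp2 π χ h c hc h0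
    refine isCoboundary_of_ker π c hc h1 (fun c' hc' => ?_)
    have : Finite π.range := Finite.of_surjective _ π.rangeRestrict_surjective
    exact isCoboundary_of_injective hres π.range.subtype (Subgroup.subtype_injective _)
      (ImgHyp.of_TWHyp π χ h) c' hc'
  · push Not at h0
    obtain ⟨x, hx1, hx2, hx⟩ := h0
    exact twSet_nonempty_of_ne_zero hp2 π χ h c hc x hx1 hx2 hx

end Fermat.Agent.S56.Grp
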