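import Fermat.Agent.S56.Grp.RegSS

/-!
# (a5-G) step (G2): `ad⁰(1)` is an irreducible `k[G]`-module
-/

set_option autoImplicit false

namespace Fermat.Agent.S56.Grp

open Matrix Polynomial

variable {k : Type} [Field k] {G : Type} [Group G]

local notation "Mat2" => Matrix (Fin 2) (Fin 2)

theorem coe_det_ne_zero (π : G →* GL (Fin 2) k) (g : G) :
    ((π g : GL (Fin 2) k).det : k) ≠ 0 := Units.ne_zero _

theorem conj_mul_conj (A : GL (Fin 2) k) (X Y : Mat2 k) :
    ((A : Mat2 k) * X * ((A⁻¹ : GL (Fin 2) k) : Mat2 k)) *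
      ((A : Mat2 k) * Y * ((A⁻¹ : GL (Fin 2) k) : Mat2 k)) =
    (A : Mat2 k) * (X * Y) * ((A⁻¹ : GL (Fin 2) k) : Mat2 k) := by
  calc _ = (A : Mat2 k) * X * (((A⁻¹ : GL (Fin 2) k) : Mat2 k) * (A : Mat2 k)) * Y *
        ((A⁻¹ : GL (Fin 2) k) : Mat2 k) := by simp only [Matrix.mul_assoc]
    _ = _ := by rw [coe_inv_mul_coe, Matrix.mul_one]; simp only [Matrix.mul_assoc]

theorem act_bracket (π : G →* GL (Fin 2) k) (g : G) (X Y : Mat2 k) :
    ((π g : GL (Fin 2) k).det : k) • act π g (X * Y - Y * X) =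
      act π g X * act π g Y - act π g Y * act π g X := by
  simp only [act_apply, Matrix.smul_mul, Matrix.mul_smul, conj_mul_conj, Matrix.mul_sub,
    Matrix.sub_mul, smul_sub]

/-- from a stable line for the twisted action to a semi-invariant for conjugation -/
theorem mul_eq_smul_mul_of_act_eq {π : G →* GL (Fin 2) k} {g : G} {Z : Mat2 k} {μ : k}
    (h : act π g Z = μ • Z) :
    (π g : Mat2 k) * Z = (μ / ((π g : GL (Fin 2) k).det : k)) • (Z * (π g : Mat2 k)) := by
  have hd := coe_det_ne_zero π g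
  have h1 := congrArg (fun T => T * (π g : Mat2 k)) h
  simp only [act_apply, Matrix.smul_mul, Matrix.mul_assoc, coe_inv_mul_coe, Matrix.mul_one] at h1
  rw [div_eq_inv_mul, ← smul_smul, ← h1, smul_smul, inv_mul_cancel₀ hd, one_smul]

section stable_line

/-- a proper nonzero stable subspace of `ad⁰` produces a stable line -/
theorem exists_stable_line (h2 : (2 : k) ≠ 0) (π : G →* GL (Fin 2) k)
    {W : Submodule k (Mat2 k)} (hW : W ≤ ad0 k) (hst : ∀ g, ∀ X ∈ W, act π g X ∈ W)
    (h0 : W ≠ ⊥) (h1 : W ≠ ad0 k) :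
    ∃ Z : Mat2 k, Z ≠ 0 ∧ Z.trace = 0 ∧ ∀ g, ∃ μ : k, act π g Z = μ • Z := by
  have htr : ∀ X ∈ W, X.trace = 0 := fun X hX => (mem_ad0_iff X).1 (hW hX)
  by_cases hcomm : ∀ X ∈ W, ∀ Y ∈ W, X * Y = Y * X
  · obtain ⟨X, hX, hX0⟩ := Submodule.exists_mem_ne_zero_of_ne_bot h0
    refine ⟨X, hX0, htr X hX, fun g => ?_⟩
    exact exists_smul_of_commute h2 hX0 (htr X hX) (htr _ (hst g X hX))
      (hcomm X hX _ (hst g X hX))
  · push Not at hcomm
    obtain ⟨X, hX, Y, hY, hXY⟩ := hcomm
    -- the triple product vanishes on `W`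
    have hA : ∀ X' ∈ W, ∀ Y' ∈ W, ∀ T ∈ W, (T * (X' * Y' - Y' * X')).trace = 0 := by
      intro X' hX' Y' hY' T hT
      by_contra hδ
      apply h1
      refine le_antisymm hW (fun U hU => ?_)
      have hc := cramer_sl2 (htr X' hX') (htr Y' hY') (htr T hT) ((mem_ad0_iff U).1 hU)
      have hmem : (T * (X' * Y' - Y' * X')).trace • U ∈ W := by
        rw [hc]
        exact W.add_mem (W.add_mem (W.smul_mem _ hT) (W.smul_mem _ hX')) (W.smul_mem _ hY')
      have := W.smul_mem ((T * (X' * Y' - Y' * X')).trace)⁻¹ hmem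
      rwa [smul_smul, inv_mul_cancel₀ hδ, one_smul] at this
    set Z : Mat2 k := X * Y - Y * X with hZ
    have hZ0 : Z ≠ 0 := fun h => hXY (sub_eq_zero.1 h)
    have hZt : Z.trace = 0 := trace_bracket X Y
    refine ⟨Z, hZ0, hZt, fun g => ?_⟩
    -- the bracket of two elements of `W` is a multiple of `Z`
    have hB : ∀ X' ∈ W, ∀ Y' ∈ W, ∃ l : k, X' * Y' - Y' * X' = l • Z := by
      intro X' hX' Y' hY'
      have hZ't : (X' * Y' - Y' * X').trace = 0 := trace_bracket X' Y'
      have hbb := bracket_bracket hZ't (htr X hX) (htr Y hY)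
      have e1 : ((X' * Y' - Y' * X') * X).trace = 0 := by
        rw [Matrix.trace_mul_comm]; exact hA X' hX' Y' hY' X hX
      have e2 : ((X' * Y' - Y' * X') * Y).trace = 0 := by
        rw [Matrix.trace_mul_comm]; exact hA X' hX' Y' hY' Y hY
      rw [e1, e2, mul_zero, zero_smul, zero_smul, sub_zero, sub_eq_zero] at hbb
      exact exists_smul_of_commute h2 hZ0 hZt hZ't hbb.symm
    obtain ⟨l, hl⟩ := hB _ (hst g X hX) _ (hst g Y hY)
    rw [← act_bracket] at hl
    refine ⟨(((π g : GL (Fin 2) k).det : k))⁻¹ * l, ?_⟩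
    rw [← smul_smul, ← hl, smul_smul, inv_mul_cancel₀ (coe_det_ne_zero π g), one_smul]

end stable_line

section main

variable {p n : ℕ} [Fact p.Prime] [CharP k p]

theorem two_ne_zero_of_ne_two (hp2 : p ≠ 2) : (2 : k) ≠ 0 := by
  have := (CharP.cast_eq_zero_iff k p 2).not.2 (fun hd => hp2
    ((Nat.prime_dvd_prime_iff_eq (Fact.out : p.Prime) Nat.prime_two).1 hd))
  exact_mod_cast this

/-- there is no line in `ad⁰` which is semi-invariant under conjugation -/
theorem no_semi_invariant (hp2 : p ≠ 2) (π : G →* GL (Fin 2) k)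
    (χ : G →* (ZMod (p ^ (n + 1)))ˣ) (h : TWHyp p n π χ) {Z : Mat2 k} (hZ0 : Z ≠ 0)
    (hZt : Z.trace = 0)
    (hst : ∀ g, ∃ ν : k, (π g : Mat2 k) * Z = ν • (Z * (π g : Mat2 k))) : False := by
  have h2 : (2 : k) ≠ 0 := two_ne_zero_of_ne_two hp2
  have hZZ : Z * Z = (-Z.det) • (1 : Mat2 k) := mul_self_of_trace_eq_zero hZt
  by_cases hd : Z.det = 0
  · -- `Z` nilpotent: its kernel is a stable line
    obtain ⟨v, hv, hZv⟩ := exists_ne_zero_mulVec_eq_zero hd
    refine h.irr_top v hv (fun g => ?_)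
    obtain ⟨ν, hν⟩ := hst g
    have hν0 : ν ≠ 0 := by
      rintro rfl
      rw [zero_smul] at hν
      apply hZ0
      have := congrArg (fun T => (((π g)⁻¹ : GL (Fin 2) k) : Mat2 k) * T) hν
      simpa [← Matrix.mul_assoc, coe_inv_mul_coe] using this
    have h4 : Z *ᵥ ((π g : Mat2 k) *ᵥ v) = 0 := by
      have e : Z * (π g : Mat2 k) = ν⁻¹ • ((π g : Mat2 k) * Z) := by
        rw [hν, smul_smul, inv_mul_cancel₀ hν0, one_smul]
      rw [Matrix.mulVec_mulVec, e, Matrix.smul_mulVec, ← Matrix.mulVec_mulVec, hZv,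
        Matrix.mulVec_zero, smul_zero]
    exact exists_smul_of_mulVec_eq_zero hZ0 hv hZv h4
  · -- `Z` semisimple with eigenvalues `± μ` over the algebraic closure
    -- every `g` commutes or anticommutes with `Z`
    have hpm : ∀ g : G, (π g : Mat2 k) * Z = Z * (π g : Mat2 k) ∨
        (π g : Mat2 k) * Z = -(Z * (π g : Mat2 k)) := by
      intro g
      obtain ⟨ν, hν⟩ := hst g
      have e1 : (π g : Mat2 k) * (Z * Z) = (ν * ν) • ((Z * Z) * (π g : Mat2 k)) := by
        rw [← Matrix.mul_assoc, hν, Matrix.smul_mul, Matrix.mul_assoc, hν, Matrix.mul_smul,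
          smul_smul, Matrix.mul_assoc]
      rw [hZZ, Matrix.mul_smul, Matrix.smul_mul, Matrix.mul_one, Matrix.one_mul, smul_smul] at e1
      have e2 := congrArg (fun T => T * (((π g)⁻¹ : GL (Fin 2) k) : Mat2 k)) e1
      simp only [Matrix.smul_mul, coe_mul_coe_inv] at e2
      have e3 := congrFun (congrFun e2 0) 0
      simp only [Matrix.smul_apply, Matrix.one_apply_eq, smul_eq_mul, mul_one] at e3
      have e4 : (ν - 1) * (ν + 1) = 0 := by
        have : (-Z.det) * ((ν - 1) * (ν + 1)) = 0 := by linear_combination -e3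
        exact (mul_eq_zero.1 this).resolve_left (neg_ne_zero.2 hd)
      rcases mul_eq_zero.1 e4 with e5 | e5
      · left
        rw [hν, sub_eq_zero.1 e5, one_smul]
      · right
        rw [hν, eq_neg_of_add_eq_zero_left e5, neg_smul, one_smul]
    let H : Subgroup G :=
      { carrier := {g | (π g : Mat2 k) * Z = Z * (π g : Mat2 k)}
        one_mem' := by simp
        mul_mem' := by
          intro a b ha hb
          have ha : (π a : Mat2 k) * Z = Z * (π a : Mat2 k) := ha
          have hb : (π b : Mat2 k) * Z = Z * (π b : Mat2 k) := hb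
          show (π (a * b) : Mat2 k) * Z = Z * (π (a * b) : Mat2 k)
          rw [map_mul, Units.val_mul, Matrix.mul_assoc, hb, ← Matrix.mul_assoc, ha,
            Matrix.mul_assoc]
        inv_mem' := by
          intro a ha
          have ha : (π a : Mat2 k) * Z = Z * (π a : Mat2 k) := ha
          show (π a⁻¹ : Mat2 k) * Z = Z * (π a⁻¹ : Mat2 k)
          have := congrArg (fun T => (((π a)⁻¹ : GL (Fin 2) k) : Mat2 k) * T *
            (((π a)⁻¹ : GL (Fin 2) k) : Mat2 k)) ha
          simp only [← Matrix.mul_assoc, coe_inv_mul_coe, Matrix.one_mul] at this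
          simp only [Matrix.mul_assoc, coe_mul_coe_inv, Matrix.mul_one] at this
          rw [map_inv]
          exact this.symm }
    have hHmem : ∀ g, g ∈ H ↔ (π g : Mat2 k) * Z = Z * (π g : Mat2 k) := fun g => Iff.rfl
    have hidx : H.index = 1 ∨ H.index = 2 := by
      by_cases hall : ∀ g, g ∈ H
      · left
        have : H = ⊤ := (Subgroup.eq_top_iff' H).2 hall
        rw [this, Subgroup.index_top]
      · right
        push Not at hall
        obtain ⟨a, ha⟩ := hall
        have haa : (π a : Mat2 k) * Z = -(Z * (π a : Mat2 k)) :=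
          (hpm a).resolve_left (fun hh => ha ((hHmem a).2 hh))
        rw [Subgroup.index_eq_two_iff]
        refine ⟨a, fun b => ?_⟩
        by_cases hb : b ∈ H
        · right
          refine ⟨hb, fun hba => ha ?_⟩
          have := H.mul_mem (H.inv_mem hb) hba
          rwa [inv_mul_cancel_left] at this
        · left
          refine ⟨?_, hb⟩
          have hbb : (π b : Mat2 k) * Z = -(Z * (π b : Mat2 k)) :=
            (hpm b).resolve_left (fun hh => hb ((hHmem b).2 hh))
          rw [hHmem, map_mul, Units.val_mul, Matrix.mul_assoc, haa, Matrix.mul_neg,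
            ← Matrix.mul_assoc, hbb, Matrix.neg_mul, neg_neg, Matrix.mul_assoc]
    -- eigenvector over the algebraic closure
    let K := AlgebraicClosure k
    let f : k →+* K := algebraMap k K
    obtain ⟨μ, hμ⟩ := IsAlgClosed.exists_eq_mul_self (f (-Z.det))
    have hμ0 : μ ≠ 0 := by
      rintro rfl
      rw [mul_zero] at hμ
      have : (-Z.det) = 0 := (map_eq_zero f).1 hμ
      exact hd (neg_eq_zero.1 this)
    have h2K : (2 : K) ≠ 0 := by
      have : (2 : K) = f 2 := (map_ofNat f 2).symm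
      rw [this]
      exact (map_ne_zero f).2 h2
    set ZK : Mat2 K := Z.map f with hZK
    have htK : ZK.trace = μ + -μ := by
      rw [add_neg_cancel, hZK]
      have : (Z.map f).trace = f Z.trace := by
        simp [Matrix.trace_fin_two]
      rw [this, hZt, map_zero]
    have hdK : ZK.det = μ * -μ := by
      have : (Z.map f).det = f Z.det := by
        simp [Matrix.det_fin_two]
      rw [hZK, this, mul_neg, ← hμ, map_neg, neg_neg]
    obtain ⟨v, hv, hev⟩ := exists_eigenvector htK hdK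
    have hM : ZK - μ • (1 : Mat2 K) ≠ 0 := by
      intro hM
      have := congrArg Matrix.trace hM
      rw [trace_sub_smul_one, htK, Matrix.trace_zero] at this
      have : (2 : K) * μ = 0 := by linear_combination -this
      exact (mul_ne_zero h2K hμ0) this
    have hMv : (ZK - μ • (1 : Mat2 K)) *ᵥ v = 0 := by
      rw [Matrix.sub_mulVec, Matrix.smul_mulVec, Matrix.one_mulVec, hev, sub_self]
    refine h.irr H hidx K v hv (fun g hg => ?_)
    have hcomm : ((π g : Mat2 k).map f) * ZK = ZK * ((π g : Mat2 k).map f) := by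
      rw [hZK, ← Matrix.map_mul, ← Matrix.map_mul, (hHmem g).1 hg]
    have h4 : (ZK - μ • (1 : Mat2 K)) *ᵥ (((π g : Mat2 k).map f) *ᵥ v) = 0 := by
      have e : (ZK - μ • (1 : Mat2 K)) * ((π g : Mat2 k).map f) =
          ((π g : Mat2 k).map f) * (ZK - μ • (1 : Mat2 K)) := by
        rw [Matrix.sub_mul, Matrix.mul_sub, hcomm, Matrix.smul_mul, Matrix.mul_smul,
          Matrix.one_mul, Matrix.mul_one]
      rw [Matrix.mulVec_mulVec, e, ← Matrix.mulVec_mulVec, hMv, Matrix.mulVec_zero]
    exact exists_smul_of_mulVec_eq_zero hM hv hMv h4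

/-- **(G2)**: `ad⁰(1)` is irreducible -/
theorem ad0_irreducible (hp2 : p ≠ 2) (π : G →* GL (Fin 2) k)
    (χ : G →* (ZMod (p ^ (n + 1)))ˣ) (h : TWHyp p n π χ)
    (W : Submodule k (Mat2 k)) (hW : W ≤ ad0 k)
    (hst : ∀ g, ∀ X ∈ W, act π g X ∈ W) : W = ⊥ ∨ W = ad0 k := by
  by_contra hcon
  push Not at hcon
  obtain ⟨Z, hZ0, hZt, hZ⟩ :=
    exists_stable_line (two_ne_zero_of_ne_two (p := p) hp2) π hW hst hcon.1 hcon.2
  exact no_semi_invariant hp2 π χ h hZ0 hZt
    (fun g => by
      obtain ⟨μ, hμ⟩ := hZ g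
      exact ⟨_, mul_eq_smul_mul_of_act_eq hμ⟩)

end main

end Fermat.Agent.S56.Grp
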