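import Fermat.Agent.S56.Grp.Lin2

/-!
# (a5-G) kernels of `2 × 2` matrices and nilpotent parts
-/

set_option autoImplicit false

namespace Fermat.Agent.S56.Grp

open Matrix Polynomial

variable {K : Type} [Field K]

local notation "Mat2" => Matrix (Fin 2) (Fin 2)

theorem mulVec_eq_zero_iff (M : Mat2 K) (v : Fin 2 → K) :
    M *ᵥ v = 0 ↔ M 0 0 * v 0 + M 0 1 * v 1 = 0 ∧ M 1 0 * v 0 + M 1 1 * v 1 = 0 := by
  constructor
  · intro h
    have h0 := congrFun h 0
    have h1 := congrFun h 1
    simp only [Matrix.mulVec, dotProduct, Fin.sum_univ_two, Pi.zero_apply] at h0 h1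
    exact ⟨h0, h1⟩
  · rintro ⟨h0, h1⟩
    funext i
    fin_cases i
    · simpa [Matrix.mulVec, dotProduct, Fin.sum_univ_two] using h0
    · simpa [Matrix.mulVec, dotProduct, Fin.sum_univ_two] using h1

theorem exists_smul_of_det_eq_zero {v u : Fin 2 → K} (hv : v ≠ 0)
    (hD : v 0 * u 1 - v 1 * u 0 = 0) : ∃ μ : K, u = μ • v := by
  by_cases h0 : v 0 = 0
  · have h1 : v 1 ≠ 0 := by
      intro h1
      apply hv
      funext i
      fin_cases i
      · exact h0
      · exact h1
    refine ⟨u 1 / v 1, ?_⟩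
    funext i
    fin_cases i
    · simp only [Fin.zero_eta, Fin.isValue, Pi.smul_apply, smul_eq_mul]
      rw [h0, zero_mul, zero_sub, neg_eq_zero, mul_eq_zero] at hD
      rcases hD with hD | hD
      · exact absurd hD h1
      · rw [hD, h0, mul_zero]
    · simp only [Fin.mk_one, Fin.isValue, Pi.smul_apply, smul_eq_mul]
      field_simp
  · refine ⟨u 0 / v 0, ?_⟩
    funext i
    fin_cases i
    · simp only [Fin.zero_eta, Fin.isValue, Pi.smul_apply, smul_eq_mul]
      field_simp
    · simp only [Fin.mk_one, Fin.isValue, Pi.smul_apply, smul_eq_mul]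
      field_simp
      linear_combination hD

/-- the kernel of a nonzero `2 × 2` matrix is at most a line -/
theorem exists_smul_of_mulVec_eq_zero {M : Mat2 K} (hM : M ≠ 0) {v u : Fin 2 → K}
    (hv : v ≠ 0) (hMv : M *ᵥ v = 0) (hMu : M *ᵥ u = 0) : ∃ μ : K, u = μ • v := by
  apply exists_smul_of_det_eq_zero hv
  by_contra hD
  apply hM
  obtain ⟨a0, a1⟩ := (mulVec_eq_zero_iff M v).1 hMv
  obtain ⟨b0, b1⟩ := (mulVec_eq_zero_iff M u).1 hMu
  have e00 : M 0 0 * (v 0 * u 1 - v 1 * u 0) = 0 := by linear_combination u 1 * a0 - v 1 * b0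
  have e01 : M 0 1 * (v 0 * u 1 - v 1 * u 0) = 0 := by linear_combination v 0 * b0 - u 0 * a0
  have e10 : M 1 0 * (v 0 * u 1 - v 1 * u 0) = 0 := by linear_combination u 1 * a1 - v 1 * b1
  have e11 : M 1 1 * (v 0 * u 1 - v 1 * u 0) = 0 := by linear_combination v 0 * b1 - u 0 * a1
  ext i j
  fin_cases i <;> fin_cases j
  · exact (mul_eq_zero.1 e00).resolve_right hD
  · exact (mul_eq_zero.1 e01).resolve_right hD
  · exact (mul_eq_zero.1 e10).resolve_right hD
  · exact (mul_eq_zero.1 e11).resolve_right hD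

theorem exists_ne_zero_mulVec_eq_zero {M : Mat2 K} (h : M.det = 0) :
    ∃ v : Fin 2 → K, v ≠ 0 ∧ M *ᵥ v = 0 :=
  Matrix.exists_mulVec_eq_zero_iff.2 h

theorem det_sub_smul_one (A : Mat2 K) (a : K) :
    (A - a • (1 : Mat2 K)).det = A.det - a * A.trace + a ^ 2 := by
  simp [Matrix.det_fin_two, Matrix.trace_fin_two]; ring

theorem trace_sub_smul_one (A : Mat2 K) (a : K) :
    (A - a • (1 : Mat2 K)).trace = A.trace - 2 * a := by
  simp [Matrix.trace_fin_two]; ring

/-- an eigenvector for a root of the characteristic polynomial -/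
theorem exists_eigenvector {A : Mat2 K} {a b : K} (ht : A.trace = a + b) (hd : A.det = a * b) :
    ∃ v : Fin 2 → K, v ≠ 0 ∧ A *ᵥ v = a • v := by
  have h : (A - a • (1 : Mat2 K)).det = 0 := by
    rw [det_sub_smul_one, ht, hd]; ring
  obtain ⟨v, hv, hv0⟩ := exists_ne_zero_mulVec_eq_zero h
  refine ⟨v, hv, ?_⟩
  rw [Matrix.sub_mulVec, Matrix.smul_mulVec, Matrix.one_mulVec, sub_eq_zero] at hv0
  exact hv0

/-- two trace-zero matrices whose coefficient vectors have vanishing `2 × 2` minors are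
proportional -/
theorem exists_smul_of_minors {N N' : Mat2 K} (hN : N ≠ 0)
    (hd11 : N 1 1 = - N 0 0) (hd11' : N' 1 1 = - N' 0 0)
    (m1' : N 0 0 * N' 0 1 = N' 0 0 * N 0 1) (m2' : N 0 0 * N' 1 0 = N' 0 0 * N 1 0)
    (m3' : N 0 1 * N' 1 0 = N' 0 1 * N 1 0) : ∃ l : K, N' = l • N := by
  by_cases h00 : N 0 0 = 0
  · by_cases h01 : N 0 1 = 0
    · have h10 : N 1 0 ≠ 0 := by
        intro h10
        apply hN
        ext i j
        fin_cases i <;> fin_cases j
        · exact h00
        · exact h01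
        · exact h10
        · simp only [Fin.mk_one, Fin.isValue, hd11, h00, neg_zero, Matrix.zero_apply]
      refine ⟨N' 1 0 / N 1 0, ?_⟩
      ext i j
      fin_cases i <;> fin_cases j <;>
        simp only [Fin.zero_eta, Fin.mk_one, Fin.isValue, Matrix.smul_apply, smul_eq_mul,
          hd11, hd11']
      · field_simp
        linear_combination -m2'
      · field_simp
        linear_combination -m3'
      · field_simp
      · field_simp
        linear_combination m2'
    · refine ⟨N' 0 1 / N 0 1, ?_⟩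
      ext i j
      fin_cases i <;> fin_cases j <;>
        simp only [Fin.zero_eta, Fin.mk_one, Fin.isValue, Matrix.smul_apply, smul_eq_mul,
          hd11, hd11']
      · field_simp
        linear_combination -m1'
      · field_simp
      · field_simp
        linear_combination m3'
      · field_simp
        linear_combination m1'
  · refine ⟨N' 0 0 / N 0 0, ?_⟩
    ext i j
    fin_cases i <;> fin_cases j <;>
      simp only [Fin.zero_eta, Fin.mk_one, Fin.isValue, Matrix.smul_apply, smul_eq_mul,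
        hd11, hd11']
    · field_simp
    · field_simp
      linear_combination m1'
    · field_simp
      linear_combination m2'
    · field_simp

/-- two trace-zero, determinant-zero matrices with `tr (N * N') = 0` are proportional -/
theorem exists_smul_of_trace_mul_eq_zero {N N' : Mat2 K} (hN : N ≠ 0)
    (ht : N.trace = 0) (hd : N.det = 0) (ht' : N'.trace = 0) (hd' : N'.det = 0)
    (h : (N * N').trace = 0) : ∃ l : K, N' = l • N := by
  rw [Matrix.trace_fin_two] at ht ht' h
  rw [Matrix.det_fin_two] at hd hd'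
  simp only [Matrix.mul_apply, Fin.sum_univ_two] at h
  have hd11 : N 1 1 = - N 0 0 := eq_neg_of_add_eq_zero_right ht
  have hd11' : N' 1 1 = - N' 0 0 := eq_neg_of_add_eq_zero_right ht'
  rw [hd11] at hd h
  rw [hd11'] at hd' h
  have m1 : (N 0 0 * N' 0 1 - N' 0 0 * N 0 1) ^ 2 = 0 := by
    linear_combination (-(N' 0 1) ^ 2) * hd + (-(N 0 1) ^ 2) * hd' + (-(N 0 1) * N' 0 1) * h
  have m2 : (N 0 0 * N' 1 0 - N' 0 0 * N 1 0) ^ 2 = 0 := by
    linear_combination (-(N' 1 0) ^ 2) * hd + (-(N 1 0) ^ 2) * hd' + (-(N 1 0) * N' 1 0) * h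
  have m3 : (N 0 1 * N' 1 0 - N' 0 1 * N 1 0) ^ 2 = 0 := by
    linear_combination (4 * N' 0 1 * N' 1 0) * hd + (-4 * N 0 0 ^ 2) * hd'
      + (N 0 1 * N' 1 0 + N 1 0 * N' 0 1 - 2 * N 0 0 * N' 0 0) * h
  exact exists_smul_of_minors hN hd11 hd11'
    (sub_eq_zero.1 ((pow_eq_zero_iff two_ne_zero).1 m1))
    (sub_eq_zero.1 ((pow_eq_zero_iff two_ne_zero).1 m2))
    (sub_eq_zero.1 ((pow_eq_zero_iff two_ne_zero).1 m3))

/-- the centraliser of a nonzero trace-zero matrix among trace-zero matrices is its line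
(characteristic `≠ 2`) -/
theorem exists_smul_of_commute (h2 : (2 : K) ≠ 0) {N N' : Mat2 K} (hN : N ≠ 0)
    (ht : N.trace = 0) (ht' : N'.trace = 0) (h : N * N' = N' * N) : ∃ l : K, N' = l • N := by
  rw [Matrix.trace_fin_two] at ht ht'
  have hd11 : N 1 1 = - N 0 0 := eq_neg_of_add_eq_zero_right ht
  have hd11' : N' 1 1 = - N' 0 0 := eq_neg_of_add_eq_zero_right ht'
  have e00 := congrFun (congrFun h 0) 0
  have e01 := congrFun (congrFun h 0) 1
  have e10 := congrFun (congrFun h 1) 0
  simp only [Matrix.mul_apply, Fin.sum_univ_two, hd11, hd11'] at e00 e01 e10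
  refine exists_smul_of_minors hN hd11 hd11' ?_ ?_ ?_
  · have : 2 * (N 0 0 * N' 0 1 - N' 0 0 * N 0 1) = 0 := by linear_combination e01
    exact sub_eq_zero.1 ((mul_eq_zero.1 this).resolve_left h2)
  · have : 2 * (N 0 0 * N' 1 0 - N' 0 0 * N 1 0) = 0 := by linear_combination -e10
    exact sub_eq_zero.1 ((mul_eq_zero.1 this).resolve_left h2)
  · linear_combination e00

/-- the `BAC - CAB` rule in `sl₂` -/
theorem bracket_bracket {A B C : Mat2 K} (hA : A.trace = 0) (hB : B.trace = 0)
    (hC : C.trace = 0) :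
    A * (B * C - C * B) - (B * C - C * B) * A =
      (2 * (A * B).trace) • C - (2 * (A * C).trace) • B := by
  rw [Matrix.trace_fin_two] at hA hB hC
  have a11 : A 1 1 = - A 0 0 := eq_neg_of_add_eq_zero_right hA
  have b11 : B 1 1 = - B 0 0 := eq_neg_of_add_eq_zero_right hB
  have c11 : C 1 1 = - C 0 0 := eq_neg_of_add_eq_zero_right hC
  ext i j
  fin_cases i <;> fin_cases j <;>
    simp only [Fin.zero_eta, Fin.mk_one, Fin.isValue, Matrix.sub_apply, Matrix.mul_apply,
      Fin.sum_univ_two, Matrix.smul_apply, smul_eq_mul, Matrix.trace_fin_two, a11, b11, c11] <;>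
    ring

/-- Cramer's rule in `sl₂`: if `tr (T [X, Y]) ≠ 0` then `T, X, Y` span -/
theorem cramer_sl2 {X Y T U : Mat2 K} (hX : X.trace = 0) (hY : Y.trace = 0)
    (hT : T.trace = 0) (hU : U.trace = 0) :
    (T * (X * Y - Y * X)).trace • U =
      (U * (X * Y - Y * X)).trace • T + (U * (Y * T - T * Y)).trace • X
        + (U * (T * X - X * T)).trace • Y := by
  rw [Matrix.trace_fin_two] at hX hY hT hU
  have x11 : X 1 1 = - X 0 0 := eq_neg_of_add_eq_zero_right hX
  have y11 : Y 1 1 = - Y 0 0 := eq_neg_of_add_eq_zero_right hY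
  have t11 : T 1 1 = - T 0 0 := eq_neg_of_add_eq_zero_right hT
  have u11 : U 1 1 = - U 0 0 := eq_neg_of_add_eq_zero_right hU
  ext i j
  fin_cases i <;> fin_cases j <;>
    simp only [Fin.zero_eta, Fin.mk_one, Fin.isValue, Matrix.sub_apply, Matrix.mul_apply,
      Fin.sum_univ_two, Matrix.smul_apply, Matrix.add_apply, smul_eq_mul, Matrix.trace_fin_two,
      x11, y11, t11, u11] <;>
    ring

theorem trace_bracket (X Y : Mat2 K) : (X * Y - Y * X).trace = 0 := by
  rw [Matrix.trace_sub, Matrix.trace_mul_comm, sub_self]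

/-- `[X, Y]` is orthogonal to `X` and `Y` -/
theorem trace_mul_bracket_left (X Y : Mat2 K) : (X * (X * Y - Y * X)).trace = 0 := by
  rw [Matrix.mul_sub, Matrix.trace_sub, ← Matrix.mul_assoc, ← Matrix.mul_assoc,
    Matrix.trace_mul_comm (X * Y) X, Matrix.mul_assoc, sub_self]

theorem trace_mul_bracket_right (X Y : Mat2 K) : (Y * (X * Y - Y * X)).trace = 0 := by
  rw [Matrix.mul_sub, Matrix.trace_sub, ← Matrix.mul_assoc, ← Matrix.mul_assoc,
    Matrix.trace_mul_comm (Y * X) Y, Matrix.mul_assoc, sub_self]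

end Fermat.Agent.S56.Grp
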