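import Fermat.Agent.S56.Grp.Select

/-!
# (a5-G) step (G3c): a cocycle vanishing on `ker π` comes from the image of `π`
-/

set_option autoImplicit false

namespace Fermat.Agent.S56.Grp

open Matrix Polynomial

variable {k : Type} [Field k] {G : Type} [Group G]

local notation "Mat2" => Matrix (Fin 2) (Fin 2)

theorem act_range_subtype (π : G →* GL (Fin 2) k) (g : G) (γ : π.range)
    (h : (γ : GL (Fin 2) k) = π g) (X : Mat2 k) :
    act π.range.subtype γ X = act π g X := by
  rw [act_apply, act_apply, Subgroup.coe_subtype, h]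

/-- **(G3c)** reduction to the image -/
theorem isCoboundary_of_ker (π : G →* GL (Fin 2) k)
    (c : G → Mat2 k) (hc : IsCocycle π c)
    (h0 : ∀ x, π x = 1 → c x = 0)
    (hΓ : ∀ c' : π.range → Mat2 k, IsCocycle π.range.subtype c' →
      IsCoboundary π.range.subtype c') : IsCoboundary π c := by
  -- `c` depends only on `π g`
  have hwd : ∀ g g' : G, π g = π g' → c g = c g' := by
    intro g g' hgg
    have e : g' = g * (g⁻¹ * g') := by group
    have hk : π (g⁻¹ * g') = 1 := by rw [map_mul, map_inv, hgg, inv_mul_cancel]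
    rw [e, hc.map_mul_of_eq_zero g (h0 _ hk)]
  let c' : π.range → Mat2 k := fun γ => c (Classical.choose γ.2)
  have hc'spec : ∀ γ : π.range, π (Classical.choose γ.2) = γ := fun γ => Classical.choose_spec γ.2
  have hc'g : ∀ (g : G) (γ : π.range), (γ : GL (Fin 2) k) = π g → c' γ = c g := by
    intro g γ h
    exact hwd _ _ ((hc'spec γ).trans h)
  have hcoc : IsCocycle π.range.subtype c' := by
    refine ⟨fun γ => hc.mem _, fun γ δ => ?_⟩
    have e1 : c' (γ * δ) = c (Classical.choose γ.2 * Classical.choose δ.2) := by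
      apply hc'g
      rw [map_mul, hc'spec, hc'spec]; rfl
    rw [e1, hc.map_mul]
    congr 1
    exact (act_range_subtype π _ γ (hc'spec γ).symm _).symm
  obtain ⟨m, hm, hcob⟩ := hΓ c' hcoc
  refine ⟨m, hm, fun g => ?_⟩
  have hγ : π g ∈ π.range := ⟨g, rfl⟩
  rw [← hc'g g ⟨π g, hγ⟩ rfl, hcob ⟨π g, hγ⟩, act_range_subtype π g ⟨π g, hγ⟩ rfl]

section main

variable {p n : ℕ} [Fact p.Prime] [CharP k p]

theorem ImgHyp.of_TWHyp (π : G →* GL (Fin 2) k)
    (χ : G →* (ZMod (p ^ (n + 1)))ˣ) (h : TWHyp p n π χ) : ImgHyp p π.range.subtype := by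
  refine ⟨?_, ?_, ?_⟩
  · rintro ⟨γ, g, rfl⟩
    exact h.split g
  · intro v hv H
    exact h.irr_top v hv (fun g => H ⟨π g, g, rfl⟩)
  · intro a
    have : NeZero (p ^ (n + 1)) := ⟨pow_ne_zero _ (Fact.out : p.Prime).ne_zero⟩
    have hdvd : p ∣ p ^ (n + 1) := dvd_pow_self p (Nat.succ_ne_zero n)
    obtain ⟨u, hu⟩ := ZMod.unitsMap_surjective hdvd a
    obtain ⟨g, hg⟩ := h.surj u
    refine ⟨⟨π g, g, rfl⟩, ?_⟩
    rw [Subgroup.coe_subtype, h.det g, hg, ← hu, ZMod.unitsMap_val]
    have e : (ZMod.castHom (dvd_refl p) k).comp (ZMod.castHom hdvd (ZMod p)) =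
        ZMod.castHom hdvd k := RingHom.ext_zmod _ _
    have := congrArg (fun f => f (u : ZMod (p ^ (n + 1)))) e
    simp only [RingHom.comp_apply, ZMod.castHom_apply] at this
    rw [ZMod.castHom_apply]
    exact this.symm

end main

end Fermat.Agent.S56.Grp
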