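import Fermat.Agent.S56.Grp.Basic
import Fermat.Agent.S56.Grp.Lin2Ker

/-!
# (a5-G) step (G1): the kernel of `χ` contains an element with two distinct eigenvalues
-/

set_option autoImplicit false

namespace Fermat.Agent.S56.Grp

open Matrix Polynomial

variable {k : Type} [Field k] {G : Type} [Group G]

local notation "Mat2" => Matrix (Fin 2) (Fin 2)

/-- irreducibility over `k` of the whole group -/
theorem TWHyp.irr_top {p n : ℕ} [CharP k p] {π : G →* GL (Fin 2) k}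
    {χ : G →* (ZMod (p ^ (n + 1)))ˣ} (h : TWHyp p n π χ) (v : Fin 2 → k) (hv : v ≠ 0) :
    ¬ ∀ g, ∃ μ : k, (π g : Mat2 k) *ᵥ v = μ • v := by
  intro H
  refine h.irr ⊤ (Or.inl Subgroup.index_top) k v hv ?_
  intro g _
  obtain ⟨μ, hμ⟩ := H g
  refine ⟨μ, ?_⟩
  have : ((π g : Mat2 k).map (algebraMap k k)) = (π g : Mat2 k) := by
    ext i j; simp
  rw [this]; exact hμ

/-- `A` has the double eigenvalue `a` -/
def IsDbl (A : Mat2 k) (a : k) : Prop := A.trace = 2 * a ∧ A.det = a ^ 2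

theorem exists_isDbl {A : Mat2 k}
    (hs : ∃ a b : k, A.charpoly = (X - C a) * (X - C b)) (hn : ¬ IsRegSplit A) :
    ∃ a, IsDbl A a := by
  obtain ⟨a, b, h⟩ := hs
  by_cases hab : a = b
  · subst hab
    obtain ⟨ht, hd⟩ := (charpoly_eq_mul_iff A a a).1 h
    exact ⟨a, by rw [ht]; ring, by rw [hd]; ring⟩
  · exact absurd ⟨a, b, hab, h⟩ hn

theorem IsDbl.trace_nil {A : Mat2 k} {a : k} (h : IsDbl A a) :
    (A - a • (1 : Mat2 k)).trace = 0 := by
  rw [trace_sub_smul_one, h.1]; ring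

theorem IsDbl.det_nil {A : Mat2 k} {a : k} (h : IsDbl A a) :
    (A - a • (1 : Mat2 k)).det = 0 := by
  rw [det_sub_smul_one, h.1, h.2]; ring

theorem IsDbl.unique (h2 : (2 : k) ≠ 0) {A : Mat2 k} {a a' : k} (h : IsDbl A a)
    (h' : IsDbl A a') : a = a' := by
  have := h.1.symm.trans h'.1
  exact mul_left_cancel₀ h2 this

/-- the trace computation: the nilpotent parts of two elements of a group of
"scalar times unipotent" matrices are orthogonal for the trace form -/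
theorem trace_nil_mul_eq_zero (h2 : (2 : k) ≠ 0) {A1 A2 : Mat2 k} {a1 a2 e e' : k}
    (h1 : IsDbl A1 a1) (hA2 : IsDbl A2 a2) (ha1 : a1 ≠ 0) (ha2 : a2 ≠ 0)
    (h12 : IsDbl (A1 * A2) e) (h112 : IsDbl (A1 * A1 * A2) e') :
    ((A1 - a1 • (1 : Mat2 k)) * (A2 - a2 • (1 : Mat2 k))).trace = 0 := by
  set T := (A1 * A2).trace with hT
  have ht : ((A1 - a1 • (1 : Mat2 k)) * (A2 - a2 • (1 : Mat2 k))).trace = T - 2 * a1 * a2 := by
    simp only [sub_mul, mul_sub, Matrix.trace_sub, Matrix.smul_mul, Matrix.mul_smul,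
      Matrix.one_mul, Matrix.mul_one, Matrix.trace_smul, smul_eq_mul, h1.1, hA2.1,
      trace_one_two]
    ring
  have E1 : T ^ 2 - 4 * a1 ^ 2 * a2 ^ 2 = 0 := by
    have hd : (A1 * A2).det = a1 ^ 2 * a2 ^ 2 := by rw [Matrix.det_mul, h1.2, hA2.2]
    have : T = 2 * e := h12.1
    rw [this]
    have he : e ^ 2 = a1 ^ 2 * a2 ^ 2 := by rw [← h12.2, hd]
    linear_combination 4 * he
  have hT2 : (A1 * A1 * A2).trace = 2 * a1 * T - 2 * a1 ^ 2 * a2 := by
    rw [mul_self_eq, h1.1, h1.2, sub_mul, Matrix.smul_mul, Matrix.smul_mul, Matrix.one_mul,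
      Matrix.trace_sub, Matrix.trace_smul, Matrix.trace_smul, hA2.1]
    simp only [smul_eq_mul]
    ring
  have E2 : (2 * a1 * T - 2 * a1 ^ 2 * a2) ^ 2 - 4 * a1 ^ 4 * a2 ^ 2 = 0 := by
    have hd : (A1 * A1 * A2).det = a1 ^ 4 * a2 ^ 2 := by
      rw [Matrix.det_mul, Matrix.det_mul, h1.2, hA2.2]; ring
    rw [← hT2, h112.1]
    have he : e' ^ 2 = a1 ^ 4 * a2 ^ 2 := by rw [← h112.2, hd]
    linear_combination 4 * he
  have key : (T - 2 * a1 * a2) * (8 * a1 ^ 3 * a2) = 0 := by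
    linear_combination 4 * a1 ^ 2 * E1 - E2
  rw [ht]
  have h8 : (8 : k) ≠ 0 := by
    have : (8 : k) = 2 * 2 * 2 := by norm_num
    rw [this]
    exact mul_ne_zero (mul_ne_zero h2 h2) h2
  have hne : (8 * a1 ^ 3 * a2 : k) ≠ 0 :=
    mul_ne_zero (mul_ne_zero h8 (pow_ne_zero _ ha1)) ha2
  exact (mul_eq_zero.1 key).resolve_right hne

theorem mulVec_smul_eigen {A B : Mat2 k} {v : Fin 2 → k} {a b : k} (hA : A *ᵥ v = a • v)
    (hB : B *ᵥ v = b • v) : (A * B) *ᵥ v = (a * b) • v := by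
  rw [← Matrix.mulVec_mulVec, hB, Matrix.mulVec_smul, hA, smul_smul, mul_comm]

theorem pow_mulVec_eigen {A : Mat2 k} {v : Fin 2 → k} {a : k} (hA : A *ᵥ v = a • v) (i : ℕ) :
    (A ^ i) *ᵥ v = (a ^ i) • v := by
  induction i with
  | zero => simp
  | succ i ih => rw [pow_succ, pow_succ]; exact mulVec_smul_eigen ih hA

section main

variable {p n : ℕ} [Fact p.Prime] [CharP k p]

/-- **(G1)** -/
theorem exists_regSplit_ker (hp2 : p ≠ 2) (π : G →* GL (Fin 2) k)
    (χ : G →* (ZMod (p ^ (n + 1)))ˣ) (h : TWHyp p n π χ) :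
    ∃ σ : G, χ σ = 1 ∧ IsRegSplit (π σ : Mat2 k) := by
  have h2 : (2 : k) ≠ 0 := by
    have := (CharP.cast_eq_zero_iff k p 2).not.2 (fun hd => hp2
      ((Nat.prime_dvd_prime_iff_eq (Fact.out : p.Prime) Nat.prime_two).1 hd))
    exact_mod_cast this
  by_contra hno
  push Not at hno
  -- every element of `ker χ` has a double eigenvalue
  have hdbl : ∀ x : G, χ x = 1 → ∃ a, IsDbl (π x : Mat2 k) a := fun x hx =>
    exists_isDbl (h.split x) (hno x hx)
  have hdet_ne : ∀ x : G, (π x : Mat2 k).det ≠ 0 := fun x => by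
    have := (π x).isUnit.map (Matrix.detMonoidHom (n := Fin 2) (R := k))
    simpa using this.ne_zero
  have hne : ∀ (x : G) (a : k), IsDbl (π x : Mat2 k) a → a ≠ 0 := by
    rintro x a ha rfl
    apply hdet_ne x
    rw [ha.2]; ring
  by_cases hns : ∃ x a, χ x = 1 ∧ IsDbl (π x : Mat2 k) a ∧ (π x : Mat2 k) - a • (1 : Mat2 k) ≠ 0
  · -- a non-scalar element: its eigenline is stable under `G`
    obtain ⟨x, a, hx, hxa, hN⟩ := hns
    set N : Mat2 k := (π x : Mat2 k) - a • (1 : Mat2 k) with hNdef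
    obtain ⟨v, hv, hNv⟩ := exists_ne_zero_mulVec_eq_zero hxa.det_nil
    refine h.irr_top v hv (fun g => ?_)
    -- the conjugate `g⁻¹ x g`
    have hy : χ (g⁻¹ * x * g) = 1 := by
      rw [map_mul, map_mul, hx, mul_one, map_inv, inv_mul_cancel]
    have hya : IsDbl (π (g⁻¹ * x * g) : Mat2 k) a := by
      have e : (π (g⁻¹ * x * g) : Mat2 k) =
          ((π g)⁻¹ : GL (Fin 2) k) * (π x : Mat2 k) * (((π g)⁻¹)⁻¹ : GL (Fin 2) k) := by
        rw [map_mul, map_mul, map_inv, inv_inv]; rfl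
      constructor
      · rw [e, trace_conj]; exact hxa.1
      · rw [e, Matrix.det_mul, Matrix.det_mul, mul_right_comm, ← Matrix.det_mul,
          coe_mul_coe_inv, Matrix.det_one, one_mul]; exact hxa.2
    -- the nilpotent part of the conjugate
    have hN' : (π (g⁻¹ * x * g) : Mat2 k) - a • (1 : Mat2 k) =
        ((π g)⁻¹ : GL (Fin 2) k) * N * (π g : Mat2 k) := by
      rw [hNdef, Matrix.mul_sub, Matrix.sub_mul, Matrix.mul_smul, Matrix.smul_mul, Matrix.mul_one,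
        coe_inv_mul_coe, map_mul, map_mul, map_inv]
      rfl
    obtain ⟨e, he⟩ := hdbl (x * (g⁻¹ * x * g)) (by rw [map_mul, hx, hy, mul_one])
    obtain ⟨e', he'⟩ := hdbl (x * x * (g⁻¹ * x * g)) (by rw [map_mul, map_mul, hx, hy]; simp)
    have ht := trace_nil_mul_eq_zero h2 hxa hya (hne x a hxa) (hne x a hxa)
      (by simpa [map_mul] using he) (by simpa [map_mul] using he')
    obtain ⟨l, hl⟩ := exists_smul_of_trace_mul_eq_zero hN hxa.trace_nil hxa.det_nil
      hya.trace_nil hya.det_nil ht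
    rw [hN'] at hl
    -- `N (g v) = l • g (N v) = 0`
    have h3 : N * (π g : Mat2 k) = l • ((π g : Mat2 k) * N) := by
      have := congrArg (fun Z => (π g : Mat2 k) * Z) hl
      simp only [← Matrix.mul_assoc, coe_mul_coe_inv, Matrix.one_mul, Matrix.mul_smul] at this
      exact this
    have h4 : N *ᵥ ((π g : Mat2 k) *ᵥ v) = 0 := by
      rw [Matrix.mulVec_mulVec, h3, Matrix.smul_mulVec, ← Matrix.mulVec_mulVec, hNv,
        Matrix.mulVec_zero, smul_zero]
    exact exists_smul_of_mulVec_eq_zero hN hv hNv h4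
  · -- all of `π (ker χ)` is scalar, and `G / ker χ` is cyclic
    push Not at hns
    have hsc : ∀ x : G, χ x = 1 → ∃ a : k, (π x : Mat2 k) = a • (1 : Mat2 k) := by
      intro x hx
      obtain ⟨a, ha⟩ := hdbl x hx
      exact ⟨a, sub_eq_zero.1 (hns x a hx ha)⟩
    have : IsCyclic (ZMod (p ^ (n + 1)))ˣ :=
      ZMod.isCyclic_units_of_prime_pow p Fact.out hp2 (n + 1)
    have : NeZero (p ^ (n + 1)) := ⟨pow_ne_zero _ (Fact.out : p.Prime).ne_zero⟩
    obtain ⟨ζ, hζ⟩ := IsCyclic.exists_monoid_generator (α := (ZMod (p ^ (n + 1)))ˣ)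
    obtain ⟨g0, hg0⟩ := h.surj ζ
    obtain ⟨a, b, hab⟩ := h.split g0
    obtain ⟨ht, hd⟩ := (charpoly_eq_mul_iff _ a b).1 hab
    obtain ⟨v, hv, hav⟩ := exists_eigenvector ht hd
    refine h.irr_top v hv (fun g => ?_)
    obtain ⟨i, hi⟩ := hζ (χ g)
    have hx : χ ((g0 ^ i)⁻¹ * g) = 1 := by
      rw [map_mul, map_inv, map_pow, hg0]
      simp only at hi
      rw [hi, inv_mul_cancel]
    obtain ⟨s, hs⟩ := hsc _ hx
    have hg : (π g : Mat2 k) = (π g0 : Mat2 k) ^ i * (s • (1 : Mat2 k)) := by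
      rw [← hs, ← Units.val_pow_eq_pow_val, ← Units.val_mul, ← map_pow, ← map_mul,
        mul_inv_cancel_left]
    refine ⟨a ^ i * s, ?_⟩
    rw [hg]
    refine mulVec_smul_eigen (pow_mulVec_eigen hav i) ?_
    rw [Matrix.smul_mulVec, Matrix.one_mulVec]

end main

end Fermat.Agent.S56.Grp
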