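import Fermat.Agent.S56.Grp.AdIrr
import Fermat.Agent.S56.Grp.Stable

/-!
# (a5-G) step (G3): selection of the Taylor-Wiles element when the cocycle is not inflated,
and vanishing on `ker π` otherwise
-/

set_option autoImplicit false

namespace Fermat.Agent.S56.Grp

open Matrix Polynomial

variable {k : Type} [Field k] {G : Type} [Group G]

local notation "Mat2" => Matrix (Fin 2) (Fin 2)

/-- a trace-zero matrix orthogonal to all trace-zero matrices vanishes (characteristic `≠ 2`) -/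
theorem eq_zero_of_trace_mul (h2 : (2 : k) ≠ 0) {F : Mat2 k} (hF : F.trace = 0)
    (h : ∀ X ∈ ad0 k, (X * F).trace = 0) : F = 0 := by
  have e1 := h !![0, 1; 0, 0] (by rw [mem_ad0_iff]; simp [Matrix.trace_fin_two])
  have e2 := h !![0, 0; 1, 0] (by rw [mem_ad0_iff]; simp [Matrix.trace_fin_two])
  have e3 := h !![1, 0; 0, -1] (by rw [mem_ad0_iff]; simp [Matrix.trace_fin_two])
  rw [Matrix.trace_fin_two] at hF e1 e2 e3
  simp [Matrix.mul_apply, Fin.sum_univ_two] at e1 e2 e3
  have h11 : F 1 1 = - F 0 0 := eq_neg_of_add_eq_zero_right hF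
  have h00 : F 0 0 = 0 := by
    have : 2 * F 0 0 = 0 := by rw [h11] at e3; linear_combination e3
    exact (mul_eq_zero.1 this).resolve_left h2
  ext i j
  fin_cases i <;> fin_cases j
  · exact h00
  · exact e2
  · exact e1
  · simp only [Fin.mk_one, Fin.isValue, h11, h00, neg_zero, Matrix.zero_apply]

theorem smul_one_eq_scalar (a : k) : a • (1 : Mat2 k) = Matrix.scalar (Fin 2) a := by
  rw [Matrix.smul_one_eq_diagonal, Matrix.scalar_apply]

/-- elements of `rg π σ` are orthogonal to every `F` commuting with `π σ`, if `det (π σ) = 1` -/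
theorem trace_mul_eq_zero_of_mem_rg (π : G →* GL (Fin 2) k) {σ : G}
    (hdet : ((π σ : GL (Fin 2) k).det : k) = 1) {F : Mat2 k}
    (hF : (π σ : Mat2 k) * F = F * (π σ : Mat2 k)) {X : Mat2 k} (hX : X ∈ rg π σ) :
    (X * F).trace = 0 := by
  obtain ⟨m, -, rfl⟩ := (mem_rg_iff π σ X).1 hX
  rw [act_apply, hdet, one_smul, Matrix.sub_mul, Matrix.trace_sub, sub_eq_zero]
  have hF' : F = (π σ : Mat2 k) * F * (((π σ)⁻¹ : GL (Fin 2) k) : Mat2 k) := by
    rw [hF, Matrix.mul_assoc, coe_mul_coe_inv, Matrix.mul_one]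
  conv_lhs => rw [hF']
  rw [conj_mul_conj, trace_conj]

section main

variable {p n : ℕ} [Fact p.Prime] [CharP k p]

omit [Fact p.Prime] in
theorem TWHyp.det_eq_one {π : G →* GL (Fin 2) k} {χ : G →* (ZMod (p ^ (n + 1)))ˣ}
    (h : TWHyp p n π χ) {σ : G} (hσ : χ σ = 1) : ((π σ : GL (Fin 2) k).det : k) = 1 := by
  rw [h.det σ, hσ, Units.val_one, map_one]

/-- **(G3a)** if the cocycle does not vanish on `ker π ⊓ ker χ`, the Taylor-Wiles set is
nonempty -/
theorem twSet_nonempty_of_ne_zero (hp2 : p ≠ 2) (π : G →* GL (Fin 2) k)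
    (χ : G →* (ZMod (p ^ (n + 1)))ˣ) (h : TWHyp p n π χ)
    (c : G → Mat2 k) (hc : IsCocycle π c)
    (x : G) (hx1 : π x = 1) (hx2 : χ x = 1) (hx : c x ≠ 0) :
    (twSet π χ c).Nonempty := by
  have h2 : (2 : k) ≠ 0 := two_ne_zero_of_ne_two (p := p) hp2
  -- the span of the values of `c` on `ker π ⊓ ker χ`
  set S : Set (Mat2 k) := {Y | ∃ y : G, π y = 1 ∧ χ y = 1 ∧ c y = Y} with hS
  set W : Submodule k (Mat2 k) := Submodule.span k S with hWdef
  have hW : W ≤ ad0 k := by
    rw [hWdef, Submodule.span_le]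
    rintro Y ⟨y, -, -, rfl⟩
    exact hc.mem y
  have hst : ∀ g, ∀ X ∈ W, act π g X ∈ W := by
    intro g X hX
    induction hX using Submodule.span_induction with
    | mem Y hY =>
      obtain ⟨y, hy1, hy2, rfl⟩ := hY
      apply Submodule.subset_span
      refine ⟨g * y * g⁻¹, ?_, ?_, ?_⟩
      · rw [map_mul, map_mul, hy1, mul_one, map_inv, mul_inv_cancel]
      · rw [map_mul, map_mul, hy2, mul_one, map_inv, mul_inv_cancel]
      · have hπ : π (g * y * g⁻¹) = 1 := by
          rw [map_mul, map_mul, hy1, mul_one, map_inv, mul_inv_cancel]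
        rw [hc.map_conj, act_of_eq_one π hπ, sub_self, sub_zero]
    | zero => rw [map_zero]; exact W.zero_mem
    | add Y Y' _ _ hY hY' => rw [map_add]; exact W.add_mem hY hY'
    | smul a Y _ hY => rw [map_smul]; exact W.smul_mem a hY
  have hWne : W ≠ ⊥ := by
    intro hbot
    have : c x ∈ W := Submodule.subset_span ⟨x, hx1, hx2, rfl⟩
    rw [hbot, Submodule.mem_bot] at this
    exact hx this
  have hWtop : W = ad0 k := (ad0_irreducible hp2 π χ h W hW hst).resolve_left hWne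
  -- the element of (G1)
  obtain ⟨σ0, hσ0, hreg⟩ := exists_regSplit_ker hp2 π χ h
  have hdet : ((π σ0 : GL (Fin 2) k).det : k) = 1 := h.det_eq_one hσ0
  set F : Mat2 k := (π σ0 : Mat2 k) - ((π σ0 : Mat2 k).trace / 2) • (1 : Mat2 k) with hFdef
  have hFt : F.trace = 0 := by
    rw [hFdef, trace_sub_smul_one]; field_simp; ring
  have hF0 : F ≠ 0 := by
    intro hF
    refine hreg.ne_scalar ((π σ0 : Mat2 k).trace / 2) ?_
    rw [← smul_one_eq_scalar]
    exact sub_eq_zero.1 hF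
  have hFc : (π σ0 : Mat2 k) * F = F * (π σ0 : Mat2 k) := by
    rw [hFdef, Matrix.mul_sub, Matrix.sub_mul, Matrix.mul_smul, Matrix.smul_mul, Matrix.mul_one,
      Matrix.one_mul]
  -- some value of `c` on `ker π ⊓ ker χ` is not orthogonal to `F`
  have hex : ∃ y : G, π y = 1 ∧ χ y = 1 ∧ (c y * F).trace ≠ 0 := by
    by_contra hcon
    push Not at hcon
    apply hF0
    refine eq_zero_of_trace_mul h2 hFt (fun X hX => ?_)
    rw [← hWtop] at hX
    induction hX using Submodule.span_induction with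
    | mem Y hY =>
      obtain ⟨y, hy1, hy2, rfl⟩ := hY
      exact hcon y hy1 hy2
    | zero => rw [Matrix.zero_mul, Matrix.trace_zero]
    | add Y Y' _ _ hY hY' => rw [Matrix.add_mul, Matrix.trace_add, hY, hY', add_zero]
    | smul a Y _ hY => rw [Matrix.smul_mul, Matrix.trace_smul, hY, smul_zero]
  obtain ⟨y, hy1, hy2, hyF⟩ := hex
  have hy_not : c y ∉ rg π σ0 := fun hmem =>
    hyF (trace_mul_eq_zero_of_mem_rg π hdet hFc hmem)
  by_cases hσc : c σ0 ∈ rg π σ0
  · refine ⟨y * σ0, (mem_twSet_iff π χ c _).2 ⟨?_, ?_, ?_⟩⟩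
    · rw [map_mul, hy2, hσ0, mul_one]
    · rw [map_mul, hy1, one_mul]; exact hreg
    · have hπ : π (y * σ0) = π σ0 := by rw [map_mul, hy1, one_mul]
      rw [rg_congr π hπ, hc.map_mul, act_of_eq_one π hy1]
      intro hmem
      exact hy_not ((Submodule.add_mem_iff_left _ hσc).1 hmem)
  · exact ⟨σ0, (mem_twSet_iff π χ c _).2 ⟨hσ0, hreg, hσc⟩⟩

/-- **(G3b)** if the cocycle vanishes on `ker π ⊓ ker χ`, it vanishes on `ker π` -/
theorem eq_zero_of_mem_ker (hp2 : p ≠ 2) (π : G →* GL (Fin 2) k)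
    (χ : G →* (ZMod (p ^ (n + 1)))ˣ) (h : TWHyp p n π χ)
    (c : G → Mat2 k) (hc : IsCocycle π c)
    (h0 : ∀ x, π x = 1 → χ x = 1 → c x = 0) (x : G) (hx : π x = 1) : c x = 0 := by
  by_contra hcx
  -- `c x` is fixed by `G`
  have hfix : ∀ g, act π g (c x) = c x := by
    intro g
    have hπ : π (g * x * g⁻¹) = 1 := by
      rw [map_mul, map_mul, hx, mul_one, map_inv, mul_inv_cancel]
    have e1 : c (g * x * g⁻¹) = act π g (c x) := by
      rw [hc.map_conj, act_of_eq_one π hπ, sub_self, sub_zero]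
    have e2 : g * x * g⁻¹ = x * (x⁻¹ * g * x * g⁻¹) := by group
    have hn1 : π (x⁻¹ * g * x * g⁻¹) = 1 := by
      simp only [map_mul, map_inv, hx, inv_one, one_mul, mul_one, mul_inv_cancel]
    have hn2 : χ (x⁻¹ * g * x * g⁻¹) = 1 := by
      simp only [map_mul, map_inv]
      rw [mul_comm (χ x)⁻¹, mul_assoc (χ g), inv_mul_cancel, mul_one, mul_inv_cancel]
    rw [← e1, e2, hc.map_mul_of_eq_zero x (h0 _ hn1 hn2)]
  refine no_semi_invariant hp2 π χ h hcx ((mem_ad0_iff _).1 (hc.mem x)) (fun g => ?_)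
  have : act π g (c x) = (1 : k) • c x := by rw [one_smul, hfix g]
  exact ⟨_, mul_eq_smul_mul_of_act_eq this⟩

end main

end Fermat.Agent.S56.Grp
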